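/-
A3 / piece ORD (helper619): basic facts about `R = GaloisRep.ratLocalizedAt p ⊆ ℚ` (any `p`)
and about Galois-fixed elements of `ℚ̄`.
-/
import Mathlib
import Fermat.Prelude.Def_GaloisRep_Flat

set_option autoImplicit false

noncomputable section

namespace Fermat.Agent.A3.H619

open GaloisRep

/-- `ℚ̄`. -/
abbrev Qb : Type := AlgebraicClosure ℚ

/-- `G_ℚ`. -/
abbrev GQ : Type := Qb ≃ₐ[ℚ] Qb

variable (p : ℕ)

theorem intCast_mem_ratLoc (n : ℤ) : (n : ℚ) ∈ ratLocalizedAt p := by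
  show ((n : ℚ)).den.Coprime p
  simp

theorem natCast_mem_ratLoc (n : ℕ) : (n : ℚ) ∈ ratLocalizedAt p := by
  show ((n : ℚ)).den.Coprime p
  simp

theorem inv_den_mem_ratLoc (x : ratLocalizedAt p) : ((x.1.den : ℚ))⁻¹ ∈ ratLocalizedAt p := by
  show (((x.1.den : ℚ))⁻¹).den.Coprime p
  rw [Rat.inv_natCast_den, if_neg x.1.den_ne_zero]
  exact x.2

/-- Every ideal of `ratLocalizedAt p` is principal. -/
instance isPrincipalIdealRing_ratLoc : IsPrincipalIdealRing (ratLocalizedAt p) := by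
  refine ⟨fun I => ?_⟩
  -- the contraction to `ℤ`
  let f : ℤ →+* ratLocalizedAt p := Int.castRingHom _
  obtain ⟨n, hn⟩ : ∃ n : ℤ, I.comap f = Ideal.span {n} :=
    ⟨_, (Submodule.IsPrincipal.span_singleton_generator (I.comap f)).symm⟩
  refine ⟨⟨f n, ?_⟩⟩
  apply le_antisymm
  · intro x hx
    -- `x = num / den`
    have hden : (⟨(x.1.den : ℚ), natCast_mem_ratLoc p _⟩ : ratLocalizedAt p) * x = f x.1.num := by
      apply Subtype.ext
      simp [f, Rat.den_mul_eq_num]
    have hnum : x.1.num ∈ I.comap f := by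
      rw [Ideal.mem_comap, ← hden]
      exact I.mul_mem_left _ hx
    rw [hn, Ideal.mem_span_singleton] at hnum
    obtain ⟨k, hk⟩ := hnum
    have hx' : x = f n * (f k * ⟨((x.1.den : ℚ))⁻¹, inv_den_mem_ratLoc p x⟩) := by
      apply Subtype.ext
      have h1 : (x.1.den : ℚ) ≠ 0 := by exact_mod_cast x.1.den_ne_zero
      have h2 : x.1 = (x.1.num : ℚ) / (x.1.den : ℚ) := (Rat.num_div_den x.1).symm
      simp only [f, Subring.coe_mul, eq_intCast, Subring.coe_intCast]
      rw [← mul_assoc, ← Int.cast_mul, ← hk]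
      rw [← div_eq_mul_inv]
      exact h2
    rw [hx']
    exact Ideal.mul_mem_right _ _ (Ideal.subset_span (Set.mem_singleton (f n)))
  · rw [Submodule.span_le, Set.singleton_subset_iff]
    have : n ∈ I.comap f := by rw [hn]; exact Ideal.subset_span rfl
    exact this

theorem algebraMap_ratLoc_Qb_injective :
    Function.Injective (algebraMap (ratLocalizedAt p) Qb) := by
  intro x y h
  apply Subtype.ext
  exact (algebraMap ℚ Qb).injective h

instance faithfulSMul_ratLoc_rat : FaithfulSMul (ratLocalizedAt p) ℚ :=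
  (faithfulSMul_iff_algebraMap_injective _ _).mpr Subtype.val_injective

instance isFractionRing_ratLoc : IsFractionRing (ratLocalizedAt p) ℚ := by
  refine IsFractionRing.of_field (ratLocalizedAt p) ℚ fun z => ?_
  refine ⟨⟨(z.num : ℚ), intCast_mem_ratLoc p _⟩, ⟨(z.den : ℚ), natCast_mem_ratLoc p _⟩, ?_⟩
  show z = (z.num : ℚ) / (z.den : ℚ)
  exact (Rat.num_div_den z).symm

/-- `ratLocalizedAt p` is integrally closed in `ℚ`. -/
theorem mem_ratLoc_of_isIntegral {x : ℚ} (hx : IsIntegral (ratLocalizedAt p) x) :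
    x ∈ ratLocalizedAt p := by
  obtain ⟨y, rfl⟩ := IsIntegrallyClosed.isIntegral_iff.mp hx
  exact y.2

theorem isGalois_Qb : IsGalois ℚ Qb := by
  have : IsAlgClosure ℚ (AlgebraicClosure ℚ) :=
    ⟨inferInstance, AlgebraicClosure.isAlgebraic ℚ⟩
  exact IsAlgClosure.isGalois ℚ (AlgebraicClosure ℚ)

/-- An element of `ℚ̄` fixed by `G_ℚ` is rational. -/
theorem exists_rat_of_fixed (x : Qb) (h : ∀ σ : GQ, σ x = x) :
    ∃ q : ℚ, algebraMap ℚ Qb q = x := by
  have := isGalois_Qb
  exact (InfiniteGalois.mem_range_algebraMap_iff_fixed x).mpr h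

end Fermat.Agent.A3.H619
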