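/-
A3 / piece ORD (helper619): Galois descent for lattices of equivariant functions.

`T` a type with an action `act` of `G_ℚ`; a function `f : T → ℚ̄` is *equivariant* if
`f (σ t) = σ (f t)`.  Equivariant functions which are linearly independent over
`R = ratLocalizedAt p` are linearly independent over `ℚ̄`.
-/
import Fermat.Agent.A3.H619.RatLoc

set_option autoImplicit false

noncomputable section

namespace Fermat.Agent.A3.H619

open GaloisRep

variable {p : ℕ} {T : Type}

/-- Galois-equivariant functions `T → ℚ̄`. -/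
def IsEquivFun (act : GQ → T → T) (f : T → Qb) : Prop :=
  ∀ (σ : GQ) (t : T), f (act σ t) = σ (f t)

/-- Clearing denominators: finitely many rationals have a common nonzero multiplier in `R`. -/
theorem exists_common_den {ι : Type*} (s : Finset ι) (q : ι → ℚ) :
    ∃ d : ratLocalizedAt p, d ≠ 0 ∧ ∀ i ∈ s, ((d : ℚ) * q i) ∈ ratLocalizedAt p := by
  classical
  induction s using Finset.induction_on with
  | empty => exact ⟨1, one_ne_zero, by simp⟩
  | insert a s ha ih =>
    obtain ⟨d, hd0, hd⟩ := ih
    let e : ratLocalizedAt p := ⟨((q a).den : ℚ), natCast_mem_ratLoc p _⟩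
    have he0 : e ≠ 0 := by
      intro h
      have : ((q a).den : ℚ) = 0 := congrArg Subtype.val h
      exact (q a).den_ne_zero (by exact_mod_cast this)
    refine ⟨e * d, mul_ne_zero he0 hd0, ?_⟩
    intro i hi
    rcases Finset.mem_insert.mp hi with rfl | hi
    · have h1 : ((e * d : ratLocalizedAt p) : ℚ) * q i = (d : ℚ) * ((q i).num : ℚ) := by
        show ((q i).den : ℚ) * (d : ℚ) * q i = (d : ℚ) * ((q i).num : ℚ)
        rw [← Rat.den_mul_eq_num]; ring
      rw [h1]
      exact (ratLocalizedAt p).mul_mem d.2 (intCast_mem_ratLoc p _)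
    · have h1 : ((e * d : ratLocalizedAt p) : ℚ) * q i = (e : ℚ) * ((d : ℚ) * q i) := by
        show (e : ℚ) * (d : ℚ) * q i = _
        ring
      rw [h1]
      exact (ratLocalizedAt p).mul_mem e.2 (hd i hi)

section Descent

variable (act : GQ → T → T) (hact1 : ∀ t, act 1 t = t)
  (hactmul : ∀ (σ τ : GQ) (t : T), act (σ * τ) t = act σ (act τ t))

include hact1 hactmul

/-- Applying `σ` to the coefficients of a relation between equivariant functions gives a
relation. -/
theorem relation_conj {ι : Type*} (b : ι → (T → Qb)) (hb : ∀ i, IsEquivFun act (b i))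
    (s : Finset ι) (c : ι → Qb) (h : ∑ i ∈ s, c i • b i = 0) (σ : GQ) :
    ∑ i ∈ s, (σ (c i)) • b i = 0 := by
  funext t
  have ht : act σ (act σ⁻¹ t) = t := by rw [← hactmul, mul_inv_cancel, hact1]
  have h0 := congrFun h (act σ⁻¹ t)
  simp only [Finset.sum_apply, Pi.smul_apply, smul_eq_mul, Pi.zero_apply] at h0 ⊢
  have h1 := congrArg σ h0
  rw [map_sum, map_zero] at h1
  rw [← h1]
  refine Finset.sum_congr rfl fun i _ => ?_
  rw [map_mul, ← hb i σ (act σ⁻¹ t), ht]

/-- **Galois descent.**  Equivariant functions which are `R`-linearly independent are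
`ℚ̄`-linearly independent. -/
theorem linearIndependent_Qb_of_equivariant {ι : Type*} (b : ι → (T → Qb))
    (hb : ∀ i, IsEquivFun act (b i))
    (hind : LinearIndependent (ratLocalizedAt p) b) :
    LinearIndependent Qb b := by
  classical
  rw [linearIndependent_iff']
  -- strong induction on the size of the support
  suffices H : ∀ (n : ℕ) (s : Finset ι) (c : ι → Qb), s.card = n →
      ∑ i ∈ s, c i • b i = 0 → ∀ i ∈ s, c i = 0 from fun s c h => H _ s c rfl h
  intro n
  induction n using Nat.strong_induction_on with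
  | _ n ih =>
    intro s c hn h
    by_contra hne
    push Not at hne
    obtain ⟨i₀, hi₀, hc₀⟩ := hne
    -- normalise
    set c' : ι → Qb := fun i => c i / c i₀ with hc'
    have hc'0 : c' i₀ = 1 := div_self hc₀
    have h' : ∑ i ∈ s, c' i • b i = 0 := by
      have : ∑ i ∈ s, c' i • b i = (c i₀)⁻¹ • ∑ i ∈ s, c i • b i := by
        rw [Finset.smul_sum]
        refine Finset.sum_congr rfl fun i _ => ?_
        rw [smul_smul]
        show (c i / c i₀) • b i = _
        rw [div_eq_inv_mul]
      rw [this, h, smul_zero]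
    -- the coefficients are Galois-fixed
    have hfix : ∀ (σ : GQ), ∀ i ∈ s, σ (c' i) = c' i := by
      intro σ
      have hσ := relation_conj act hact1 hactmul b hb s c' h' σ
      have hd : ∑ i ∈ s.erase i₀, (σ (c' i) - c' i) • b i = 0 := by
        have h2 : ∑ i ∈ s, (σ (c' i) - c' i) • b i = 0 := by
          simp only [sub_smul, Finset.sum_sub_distrib, hσ, h', sub_zero]
        rw [← Finset.add_sum_erase s _ hi₀] at h2
        simpa [hc'0] using h2
      have hcard : (s.erase i₀).card < n := by
        rw [← hn]; exact Finset.card_erase_lt_of_mem hi₀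
      have := ih _ hcard (s.erase i₀) (fun i => σ (c' i) - c' i) rfl hd
      intro i hi
      by_cases hii : i = i₀
      · subst hii; rw [hc'0, map_one]
      · exact sub_eq_zero.mp (this i (Finset.mem_erase.mpr ⟨hii, hi⟩))
    -- hence rational
    have hrat : ∀ i ∈ s, ∃ q : ℚ, algebraMap ℚ Qb q = c' i := fun i hi =>
      exists_rat_of_fixed _ fun σ => hfix σ i hi
    choose! q hq using hrat
    obtain ⟨d, hd0, hd⟩ := exists_common_den (p := p) s q
    -- an `R`-linear relation
    let r : ι → ratLocalizedAt p := fun i =>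
      if hi : i ∈ s then ⟨(d : ℚ) * q i, hd i hi⟩ else 0
    have hr : ∀ i ∈ s, algebraMap (ratLocalizedAt p) Qb (r i)
        = algebraMap ℚ Qb (d : ℚ) * c' i := by
      intro i hi
      simp only [r, dif_pos hi]
      rw [← hq i hi, ← map_mul]
      rfl
    have hrel : ∑ i ∈ s, r i • b i = 0 := by
      have : ∑ i ∈ s, r i • b i = (algebraMap ℚ Qb (d : ℚ)) • ∑ i ∈ s, c' i • b i := by
        rw [Finset.smul_sum]
        refine Finset.sum_congr rfl fun i hi => ?_
        rw [smul_smul, ← hr i hi, algebraMap_smul]
      rw [this, h', smul_zero]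
    have hzero := linearIndependent_iff'.mp hind s r hrel i₀ hi₀
    have h3 : algebraMap ℚ Qb (d : ℚ) * c' i₀ = 0 := by
      rw [← hr i₀ hi₀, hzero, map_zero]
    rw [hc'0, mul_one] at h3
    have h4 : (d : ℚ) = 0 := (map_eq_zero _).mp h3
    exact hd0 (Subtype.ext h4)

end Descent

end Fermat.Agent.A3.H619
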