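/-
A3 / piece ORD (helper619): "good" lattices of functions and their tensor products.

A linear map `φ : M → (X → ℚ̄)` from an `R`-module is *good* if a finite `R`-basis of `M` is mapped
to a `ℚ̄`-linearly independent family.  Good maps are injective and `φ ⊠ ψ : M ⊗ N → (X × Y → ℚ̄)`
is good if `φ` and `ψ` are.
-/
import Fermat.Agent.A3.H619.Descent

set_option autoImplicit false

noncomputable section

namespace Fermat.Agent.A3.H619

open GaloisRep TensorProduct Module

variable {p : ℕ}

section Good

variable {M N : Type} [AddCommGroup M] [Module (ratLocalizedAt p) M]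
  [AddCommGroup N] [Module (ratLocalizedAt p) N] {X Y : Type}

/-- A linear map into a function space is *good* if some finite basis is mapped to a
`ℚ̄`-linearly independent family. -/
def IsGood (φ : M →ₗ[ratLocalizedAt p] (X → Qb)) : Prop :=
  ∃ (ι : Type) (_ : Fintype ι) (b : Basis ι (ratLocalizedAt p) M),
    LinearIndependent Qb (fun i => φ (b i))

theorem IsGood.injective {φ : M →ₗ[ratLocalizedAt p] (X → Qb)} (h : IsGood φ) :
    Function.Injective φ := by
  classical
  obtain ⟨ι, _, b, hb⟩ := h
  rw [← LinearMap.ker_eq_bot, LinearMap.ker_eq_bot']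
  intro m hm
  have h1 : φ m = ∑ i, (algebraMap (ratLocalizedAt p) Qb (b.repr m i)) • φ (b i) := by
    conv_lhs => rw [← b.sum_repr m]
    rw [map_sum]
    refine Finset.sum_congr rfl fun i _ => ?_
    rw [map_smul, algebraMap_smul]
  rw [hm] at h1
  have h2 := (Fintype.linearIndependent_iff.mp hb) _ h1.symm
  apply b.repr.injective
  refine Finsupp.ext fun i => ?_
  have := h2 i
  rw [map_zero, Finsupp.zero_apply]
  exact algebraMap_ratLoc_Qb_injective p (this.trans (map_zero _).symm)

/-- The external product of two linear maps into function spaces. -/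
def boxLin (φ : M →ₗ[ratLocalizedAt p] (X → Qb)) (ψ : N →ₗ[ratLocalizedAt p] (Y → Qb)) :
    M ⊗[ratLocalizedAt p] N →ₗ[ratLocalizedAt p] (X × Y → Qb) :=
  TensorProduct.lift
    (LinearMap.mk₂ (ratLocalizedAt p) (fun m n => fun xy : X × Y => φ m xy.1 * ψ n xy.2)
      (fun m₁ m₂ n => by funext xy; simp [add_mul])
      (fun c m n => by funext xy; simp [Algebra.smul_def, mul_assoc])
      (fun m n₁ n₂ => by funext xy; simp [mul_add])
      (fun c m n => by funext xy; simp [Algebra.smul_def, mul_left_comm]))

@[simp]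
theorem boxLin_tmul (φ : M →ₗ[ratLocalizedAt p] (X → Qb)) (ψ : N →ₗ[ratLocalizedAt p] (Y → Qb))
    (m : M) (n : N) (xy : X × Y) : boxLin φ ψ (m ⊗ₜ n) xy = φ m xy.1 * ψ n xy.2 := by
  simp [boxLin]

/-- Products of `ℚ̄`-independent families of functions are independent. -/
theorem linearIndependent_box {ι κ : Type} [Fintype ι] [Fintype κ] (u : ι → (X → Qb))
    (v : κ → (Y → Qb)) (hu : LinearIndependent Qb u) (hv : LinearIndependent Qb v) :
    LinearIndependent Qb (fun ij : ι × κ => fun xy : X × Y => u ij.1 xy.1 * v ij.2 xy.2) := by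
  classical
  rw [Fintype.linearIndependent_iff]
  intro c hc
  -- fix `y`; get a relation between the `u i`
  have key : ∀ (y : Y) (i : ι), ∑ j, c (i, j) * v j y = 0 := by
    intro y
    apply Fintype.linearIndependent_iff.mp hu (fun i => ∑ j, c (i, j) * v j y)
    funext x
    have := congrFun hc (x, y)
    simp only [Finset.sum_apply, Pi.smul_apply, smul_eq_mul, Pi.zero_apply] at this ⊢
    rw [Fintype.sum_prod_type] at this
    rw [← this]
    refine Finset.sum_congr rfl fun i _ => ?_
    rw [Finset.sum_mul]
    refine Finset.sum_congr rfl fun j _ => ?_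
    ring
  rintro ⟨i, j⟩
  apply Fintype.linearIndependent_iff.mp hv (fun j => c (i, j))
  funext y
  have := key y i
  simpa using this

theorem IsGood.box {φ : M →ₗ[ratLocalizedAt p] (X → Qb)} {ψ : N →ₗ[ratLocalizedAt p] (Y → Qb)}
    (hφ : IsGood φ) (hψ : IsGood ψ) : IsGood (boxLin φ ψ) := by
  obtain ⟨ι, _, b, hb⟩ := hφ
  obtain ⟨κ, _, c, hc⟩ := hψ
  refine ⟨ι × κ, inferInstance, b.tensorProduct c, ?_⟩
  have := linearIndependent_box _ _ hb hc
  convert this using 1
  funext ij xy
  rw [Basis.tensorProduct_apply', boxLin_tmul]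

end Good

end Fermat.Agent.A3.H619
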