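/-
A3 / piece ORD (helper619): the hypotheses (O0)-(O3) on an order `H` of equivariant functions on a
finite Galois module `T`, and their first consequences: `H` is free over `R = ratLocalizedAt p`,
an `R`-basis of `H` is a `ℚ̄`-basis of `T → ℚ̄`, the tensor powers of `H` embed into function
algebras.
-/
import Fermat.Agent.A3.H619.Lattice

set_option autoImplicit false

noncomputable section

namespace Fermat.Agent.A3.H619

open GaloisRep TensorProduct Module

variable {p : ℕ} {T : Type} [AddCommGroup T]

/-- The part of the hypotheses of piece ORD which does not involve the group law. -/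
structure PreOrderHyp (p : ℕ) (T : Type) (act : GQ → T → T)
    (H : Subalgebra (ratLocalizedAt p) (T → Qb)) : Prop where
  act_one : ∀ t, act 1 t = t
  act_mul : ∀ (σ τ : GQ) (t : T), act (σ * τ) t = act σ (act τ t)
  /-- (O0) the functions in `H` are Galois-equivariant -/
  equiv : ∀ f ∈ H, IsEquivFun act f
  /-- (O1) `H` is a finitely generated `R`-module -/
  fg : H.toSubmodule.FG
  /-- (O2) `H` separates the points of `T` -/
  sep : ∀ s t : T, s ≠ t → ∃ f ∈ H, f s ≠ f t

/-- The hypotheses of piece ORD on an `R`-algebra `H` of functions on `T`. -/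
structure OrderHyp (p : ℕ) (T : Type) [AddCommGroup T] (act : GQ → T → T)
    (H : Subalgebra (ratLocalizedAt p) (T → Qb)) : Prop extends PreOrderHyp p T act H where
  act_zero : ∀ σ, act σ 0 = 0
  /-- (O3) `H` is stable under the comultiplication `f ↦ ((s, t) ↦ f (s + t))` -/
  comul : ∀ f ∈ H, ∃ (n : ℕ) (a b : Fin n → (T → Qb)), (∀ i, a i ∈ H) ∧ (∀ i, b i ∈ H) ∧
    ∀ s t, f (s + t) = ∑ i, a i s * b i t

namespace PreOrderHyp

variable {T' : Type} {act : GQ → T' → T'} {H : Subalgebra (ratLocalizedAt p) (T' → Qb)}

theorem finite (h : PreOrderHyp p T' act H) : Module.Finite (ratLocalizedAt p) ↥H :=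
  Module.Finite.iff_fg.mpr h.fg

theorem isTorsionFree (_h : PreOrderHyp p T' act H) :
    Module.IsTorsionFree (ratLocalizedAt p) ↥H := by
  refine Module.IsTorsionFree.of_smul_eq_zero fun r f hrf => ?_
  by_cases hr : r = 0
  · exact Or.inl hr
  · right
    apply Subtype.ext
    funext t
    have h1 : (r • (f : T' → Qb)) t = 0 := by
      have := congrArg (fun g : ↥H => (g : T' → Qb) t) hrf
      simpa using this
    rw [Pi.smul_apply, Algebra.smul_def, mul_eq_zero] at h1
    rcases h1 with h1 | h1
    · exact absurd (algebraMap_ratLoc_Qb_injective p (h1.trans (map_zero _).symm)) hr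
    · exact h1

theorem free (h : PreOrderHyp p T' act H) : Module.Free (ratLocalizedAt p) ↥H := by
  have := h.finite
  have := h.isTorsionFree
  exact Module.free_of_finite_type_torsion_free'

/-- The inclusion of `H` into the function algebra is good. -/
theorem isGood_val (h : PreOrderHyp p T' act H) : IsGood (H.val.toLinearMap) := by
  have := h.finite
  have := h.free
  let b := Module.Free.chooseBasis (ratLocalizedAt p) ↥H
  have hfin : Fintype (Module.Free.ChooseBasisIndex (ratLocalizedAt p) ↥H) := inferInstance
  refine ⟨_, hfin, b, ?_⟩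
  apply linearIndependent_Qb_of_equivariant (p := p) act h.act_one h.act_mul
  · intro i
    exact h.equiv _ (b i).2
  · have h1 : LinearIndependent (ratLocalizedAt p) b := b.linearIndependent
    exact h1.map' H.val.toLinearMap (LinearMap.ker_eq_bot.mpr Subtype.val_injective)

end PreOrderHyp

namespace OrderHyp

variable {act : GQ → T → T} {H : Subalgebra (ratLocalizedAt p) (T → Qb)}

theorem finite (h : OrderHyp p T act H) : Module.Finite (ratLocalizedAt p) ↥H :=
  h.toPreOrderHyp.finite

theorem isTorsionFree (h : OrderHyp p T act H) : Module.IsTorsionFree (ratLocalizedAt p) ↥H :=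
  h.toPreOrderHyp.isTorsionFree

theorem free (h : OrderHyp p T act H) : Module.Free (ratLocalizedAt p) ↥H :=
  h.toPreOrderHyp.free

/-- The inclusion of `H` into the function algebra is good. -/
theorem isGood_val (h : OrderHyp p T act H) : IsGood (H.val.toLinearMap) :=
  h.toPreOrderHyp.isGood_val

end OrderHyp

section Span

variable [Finite T]

omit [AddCommGroup T] in
/-- A subalgebra of `T → ℚ̄` (over a subring) which separates points spans `T → ℚ̄` over `ℚ̄`. -/
theorem span_eq_top_of_separates (H : Subalgebra (ratLocalizedAt p) (T → Qb))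
    (hsep : ∀ s t : T, s ≠ t → ∃ f ∈ H, f s ≠ f t) :
    Submodule.span Qb (H : Set (T → Qb)) = ⊤ := by
  classical
  cases nonempty_fintype T
  set A : Submodule Qb (T → Qb) := Submodule.span Qb (H : Set (T → Qb)) with hA
  have hone : (1 : T → Qb) ∈ A := Submodule.subset_span H.one_mem
  have hmul : ∀ x ∈ A, ∀ y ∈ A, x * y ∈ A := by
    intro x hx y hy
    have h1 : x * y ∈ A * A := Submodule.mul_mem_mul hx hy
    have h2 : A * A ≤ A := by
      rw [hA, Submodule.span_mul_span]
      apply Submodule.span_mono
      rintro _ ⟨a, ha, b, hb, rfl⟩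
      exact H.mul_mem ha hb
    exact h2 h1
  have hconst : ∀ c : Qb, (fun _ : T => c) ∈ A := by
    intro c
    have : (fun _ : T => c) = c • (1 : T → Qb) := by funext t; simp
    rw [this]
    exact A.smul_mem c hone
  have hprod : ∀ (s : Finset T) (g : T → (T → Qb)), (∀ i ∈ s, g i ∈ A) → ∏ i ∈ s, g i ∈ A := by
    intro s g
    induction s using Finset.induction_on with
    | empty => intro _; simpa using hone
    | insert a s ha ih =>
      intro hg
      rw [Finset.prod_insert ha]
      exact hmul _ (hg a (Finset.mem_insert_self a s)) _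
        (ih fun i hi => hg i (Finset.mem_insert_of_mem hi))
  -- indicator functions
  have hind : ∀ t : T, (Pi.single t (1 : Qb) : T → Qb) ∈ A := by
    intro t
    have hch : ∀ s : T, s ≠ t → ∃ f ∈ H, f s ≠ f t := fun s hs => hsep s t hs
    choose! f hfH hfne using hch
    let g : T → (T → Qb) := fun s => (f s t - f s s)⁻¹ • (f s - fun _ => f s s)
    have hg : ∀ s ∈ Finset.univ.erase t, g s ∈ A := by
      intro s hs
      have hst : s ≠ t := (Finset.mem_erase.mp hs).1
      exact A.smul_mem _ (A.sub_mem (Submodule.subset_span (hfH s hst)) (hconst _))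
    have hP := hprod (Finset.univ.erase t) g hg
    have : (∏ s ∈ Finset.univ.erase t, g s) = Pi.single t (1 : Qb) := by
      funext u
      rw [Finset.prod_apply]
      by_cases hu : u = t
      · subst hu
        rw [Pi.single_eq_same]
        apply Finset.prod_eq_one
        intro s hs
        have hst : s ≠ u := (Finset.mem_erase.mp hs).1
        have : f s u - f s s ≠ 0 := sub_ne_zero.mpr (hfne s hst).symm
        simp [g, inv_mul_cancel₀ this]
      · rw [Pi.single_eq_of_ne hu]
        apply Finset.prod_eq_zero (Finset.mem_erase.mpr ⟨hu, Finset.mem_univ u⟩)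
        simp [g]
    rwa [this] at hP
  rw [eq_top_iff]
  intro x _
  have hx : x = ∑ t, x t • (Pi.single t (1 : Qb) : T → Qb) := by
    funext u
    simp [Finset.sum_apply, Pi.single_apply]
  rw [hx]
  exact A.sum_mem fun t _ => A.smul_mem _ (hind t)

end Span

end Fermat.Agent.A3.H619
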