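/-
A3 / piece ORD (helper619): the Hopf algebra structure on an order `H` satisfying `OrderHyp`.
-/
import Fermat.Agent.A3.H619.Order

set_option autoImplicit false

noncomputable section

namespace Fermat.Agent.A3.H619

open GaloisRep TensorProduct Module

variable {p : ℕ} {T : Type}

/-- Precomposition with a map, as an algebra homomorphism of function algebras. -/
def pullAlg (p : ℕ) {X Y : Type} (g : X → Y) : (Y → Qb) →ₐ[ratLocalizedAt p] (X → Qb) :=
  AlgHom.pi (fun x => Pi.evalAlgHom (ratLocalizedAt p) (fun _ : Y => Qb) (g x))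

@[simp]
theorem pullAlg_apply {X Y : Type} (g : X → Y) (F : Y → Qb) (x : X) :
    pullAlg p g F x = F (g x) := rfl

variable (H : Subalgebra (ratLocalizedAt p) (T → Qb))

/-- `H ⊗ H → functions on T × T`. -/
def mu : ↥H ⊗[ratLocalizedAt p] ↥H →ₐ[ratLocalizedAt p] (T × T → Qb) :=
  Algebra.TensorProduct.lift ((pullAlg p Prod.fst).comp H.val) ((pullAlg p Prod.snd).comp H.val)
    (fun _ _ => Commute.all _ _)

@[simp]
theorem mu_tmul (a b : ↥H) (st : T × T) :
    mu H (a ⊗ₜ b) st = (a : T → Qb) st.1 * (b : T → Qb) st.2 := by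
  simp [mu]

theorem mu_toLinearMap :
    (mu H).toLinearMap = boxLin H.val.toLinearMap H.val.toLinearMap := by
  apply TensorProduct.ext'
  intro a b
  funext st
  simp

/-- `H ⊗ (H ⊗ H) → functions on T × (T × T)`. -/
def mu3 : ↥H ⊗[ratLocalizedAt p] (↥H ⊗[ratLocalizedAt p] ↥H) →ₐ[ratLocalizedAt p]
    (T × (T × T) → Qb) :=
  Algebra.TensorProduct.lift ((pullAlg p Prod.fst).comp H.val) ((pullAlg p Prod.snd).comp (mu H))
    (fun _ _ => Commute.all _ _)

@[simp]
theorem mu3_tmul (a : ↥H) (y : ↥H ⊗[ratLocalizedAt p] ↥H) (x : T × (T × T)) :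
    mu3 H (a ⊗ₜ y) x = (a : T → Qb) x.1 * mu H y x.2 := by
  simp [mu3]

theorem mu3_toLinearMap :
    (mu3 H).toLinearMap =
      boxLin (M := ↥H) (N := ↥H ⊗[ratLocalizedAt p] ↥H) H.val.toLinearMap (mu H).toLinearMap := by
  apply TensorProduct.ext'
  intro a b
  funext st
  simp

variable [AddCommGroup T]

/-- `f ↦ ((s, t) ↦ f (s + t))`. -/
def alpha : ↥H →ₐ[ratLocalizedAt p] (T × T → Qb) :=
  (pullAlg p (fun st : T × T => st.1 + st.2)).comp H.val

@[simp]
theorem alpha_apply (f : ↥H) (st : T × T) : alpha H f st = (f : T → Qb) (st.1 + st.2) := rfl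

/-- evaluation at `0`. -/
def ev0 : ↥H →ₐ[ratLocalizedAt p] Qb :=
  (Pi.evalAlgHom (ratLocalizedAt p) (fun _ : T => Qb) 0).comp H.val

@[simp]
theorem ev0_apply (f : ↥H) : ev0 H f = (f : T → Qb) 0 := rfl

variable {H} {act : GQ → T → T}

namespace OrderHyp

variable (h : OrderHyp p T act H)
include h

theorem mu_injective : Function.Injective (mu H) := by
  have h1 : Function.Injective (mu H).toLinearMap := by
    rw [mu_toLinearMap]
    exact (h.isGood_val.box h.isGood_val).injective
  exact h1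

theorem mu3_injective : Function.Injective (mu3 H) := by
  have h1 : Function.Injective (mu3 H).toLinearMap := by
    rw [mu3_toLinearMap, mu_toLinearMap]
    exact (h.isGood_val.box (h.isGood_val.box h.isGood_val)).injective
  exact h1

theorem alpha_mem_range (f : ↥H) : alpha H f ∈ (mu H).range := by
  obtain ⟨n, a, b, ha, hb, hab⟩ := h.comul f.1 f.2
  refine (AlgHom.mem_range _).mpr
    ⟨∑ i, (⟨a i, ha i⟩ : ↥H) ⊗ₜ[ratLocalizedAt p] (⟨b i, hb i⟩ : ↥H), ?_⟩
  funext st
  rw [map_sum, Finset.sum_apply, alpha_apply, hab]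
  refine Finset.sum_congr rfl fun i _ => ?_
  rw [mu_tmul]

/-- The comultiplication of `H`. -/
def comulAlg : ↥H →ₐ[ratLocalizedAt p] ↥H ⊗[ratLocalizedAt p] ↥H :=
  ((AlgEquiv.ofInjective (mu H) h.mu_injective).symm :
      (mu H).range →ₐ[ratLocalizedAt p] ↥H ⊗[ratLocalizedAt p] ↥H).comp
    ((alpha H).codRestrict (mu H).range h.alpha_mem_range)

theorem mu_comulAlg (f : ↥H) : mu H (h.comulAlg f) = alpha H f := by
  have := (AlgEquiv.ofInjective (mu H) h.mu_injective).apply_symm_apply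
    ((alpha H).codRestrict (mu H).range h.alpha_mem_range f)
  exact congrArg Subtype.val this

theorem mu_comulAlg_apply (f : ↥H) (s t : T) :
    mu H (h.comulAlg f) (s, t) = (f : T → Qb) (s + t) := by
  rw [h.mu_comulAlg]; rfl

end OrderHyp

end Fermat.Agent.A3.H619
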