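/-
A3 / piece ORD (helper619): counit and antipode of an order `H` satisfying `OrderHyp`.
-/
import Fermat.Agent.A3.H619.Hopf

set_option autoImplicit false

noncomputable section

namespace Fermat.Agent.A3.H619

open GaloisRep TensorProduct Module

variable {p : ℕ} {T : Type} [AddCommGroup T]
variable {H : Subalgebra (ratLocalizedAt p) (T → Qb)} {act : GQ → T → T}

namespace OrderHyp

variable (h : OrderHyp p T act H)
include h

/-- Values at `0` of functions in `H` lie in `R`. -/
theorem ev0_mem_range (f : ↥H) : ev0 H f ∈ (Algebra.ofId (ratLocalizedAt p) Qb).range := by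
  -- rationality
  have hfix : ∀ σ : GQ, σ ((f : T → Qb) 0) = (f : T → Qb) 0 := by
    intro σ
    rw [← h.equiv f.1 f.2 σ 0, h.act_zero]
  obtain ⟨q, hq⟩ := exists_rat_of_fixed _ hfix
  -- integrality
  have := h.finite
  have hint : IsIntegral (ratLocalizedAt p) f := IsIntegral.of_finite (ratLocalizedAt p) f
  have hint2 : IsIntegral (ratLocalizedAt p) (ev0 H f) := hint.map (ev0 H)
  rw [ev0_apply, ← hq] at hint2
  have hint3 : IsIntegral (ratLocalizedAt p) q :=
    (isIntegral_algebraMap_iff (algebraMap ℚ Qb).injective).mp hint2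
  have hmem := mem_ratLoc_of_isIntegral p hint3
  refine (AlgHom.mem_range _).mpr ⟨⟨q, hmem⟩, ?_⟩
  rw [ev0_apply, ← hq]
  rfl

/-- The counit of `H`. -/
def counitAlg : ↥H →ₐ[ratLocalizedAt p] ratLocalizedAt p :=
  ((AlgEquiv.ofInjective (Algebra.ofId (ratLocalizedAt p) Qb)
      (algebraMap_ratLoc_Qb_injective p)).symm :
      (Algebra.ofId (ratLocalizedAt p) Qb).range →ₐ[ratLocalizedAt p] ratLocalizedAt p).comp
    ((ev0 H).codRestrict _ h.ev0_mem_range)

theorem algebraMap_counitAlg (f : ↥H) :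
    algebraMap (ratLocalizedAt p) Qb (h.counitAlg f) = (f : T → Qb) 0 := by
  have := (AlgEquiv.ofInjective (Algebra.ofId (ratLocalizedAt p) Qb)
      (algebraMap_ratLoc_Qb_injective p)).apply_symm_apply
    ((ev0 H).codRestrict _ h.ev0_mem_range f)
  exact congrArg Subtype.val this

/-- `H` is stable under `f ↦ f ∘ (m • ·)` for `m ≥ 1`. -/
theorem comp_nsmul_mem (m : ℕ) : ∀ f ∈ H, (fun t : T => f ((m + 1) • t)) ∈ H := by
  induction m with
  | zero => intro f hf; simpa using hf
  | succ m ih =>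
    intro f hf
    obtain ⟨n, a, b, ha, hb, hab⟩ := h.comul f hf
    have : (fun t : T => f ((m + 1 + 1) • t))
        = ∑ i, (fun t : T => a i ((m + 1) • t)) * b i := by
      funext t
      rw [succ_nsmul, hab, Finset.sum_apply]
      rfl
    rw [this]
    exact H.sum_mem fun i _ => H.mul_mem (ih _ (ha i)) (hb i)

/-- `H` is stable under `f ↦ f ∘ neg`. -/
theorem comp_neg_mem [Finite T] (f : ↥H) :
    (pullAlg p (Neg.neg : T → T)).comp H.val f ∈ H := by
  have hc : 0 < Nat.card T := Nat.card_pos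
  have := h.comp_nsmul_mem (2 * Nat.card T - 2) f.1 f.2
  convert this using 1
  funext t
  show (f : T → Qb) (-t) = (f : T → Qb) ((2 * Nat.card T - 2 + 1) • t)
  have h1 : (2 * Nat.card T - 2 + 1) + 1 = 2 * Nat.card T := by omega
  have h2 : (2 * Nat.card T) • t = 0 := by
    rw [mul_smul, card_nsmul_eq_zero', smul_zero]
  have h3 : ((2 * Nat.card T - 2 + 1) + 1) • t = 0 := by rw [h1, h2]
  rw [succ_nsmul] at h3
  exact (eq_neg_of_add_eq_zero_left h3).symm ▸ rfl

/-- The antipode of `H`. -/
def antipodeAlg [Finite T] : ↥H →ₐ[ratLocalizedAt p] ↥H :=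
  ((pullAlg p (Neg.neg : T → T)).comp H.val).codRestrict H h.comp_neg_mem

@[simp]
theorem antipodeAlg_apply [Finite T] (f : ↥H) (t : T) :
    ((h.antipodeAlg f : ↥H) : T → Qb) t = (f : T → Qb) (-t) := rfl

end OrderHyp

end Fermat.Agent.A3.H619
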