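/-
A3 / piece ORD (helper619): bialgebra and Hopf algebra structure on an order `H` satisfying
`OrderHyp`.
-/
import Fermat.Agent.A3.H619.Counit

set_option autoImplicit false
set_option linter.unusedSectionVars false

noncomputable section

namespace Fermat.Agent.A3.H619

open GaloisRep TensorProduct Module

variable {p : ℕ} {T : Type} [AddCommGroup T]
variable {H : Subalgebra (ratLocalizedAt p) (T → Qb)} {act : GQ → T → T}

namespace OrderHyp

variable (h : OrderHyp p T act H)
include h

theorem mu3_map_id_comul (x : ↥H ⊗[ratLocalizedAt p] ↥H) (s t u : T) :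
    mu3 H (Algebra.TensorProduct.map (AlgHom.id (ratLocalizedAt p) ↥H) h.comulAlg x) (s, (t, u))
      = mu H x (s, t + u) := by
  induction x using TensorProduct.induction_on with
  | zero => simp
  | tmul a b =>
    rw [Algebra.TensorProduct.map_tmul, mu3_tmul, AlgHom.coe_id, id_eq, mu_tmul]
    show (a : T → Qb) s * mu H (h.comulAlg b) (t, u) = _
    rw [h.mu_comulAlg_apply]
  | add x y hx hy =>
    rw [map_add, map_add, map_add, Pi.add_apply, Pi.add_apply, hx, hy]

theorem mu3_assoc_tmul (y : ↥H ⊗[ratLocalizedAt p] ↥H) (b : ↥H) (s t u : T) :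
    mu3 H (Algebra.TensorProduct.assoc (ratLocalizedAt p) (ratLocalizedAt p) (ratLocalizedAt p)
        ↥H ↥H ↥H (y ⊗ₜ b)) (s, (t, u))
      = mu H y (s, t) * (b : T → Qb) u := by
  induction y using TensorProduct.induction_on with
  | zero => simp
  | tmul a' b' =>
    rw [Algebra.TensorProduct.assoc_tmul, mu3_tmul, mu_tmul, mu_tmul, mul_assoc]
  | add x y hx hy =>
    rw [TensorProduct.add_tmul, map_add, map_add, Pi.add_apply, map_add, Pi.add_apply, hx, hy,
      add_mul]

theorem mu3_assoc_map_comul_id (x : ↥H ⊗[ratLocalizedAt p] ↥H) (s t u : T) :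
    mu3 H (Algebra.TensorProduct.assoc (ratLocalizedAt p) (ratLocalizedAt p) (ratLocalizedAt p)
        ↥H ↥H ↥H
        (Algebra.TensorProduct.map h.comulAlg (AlgHom.id (ratLocalizedAt p) ↥H) x)) (s, (t, u))
      = mu H x (s + t, u) := by
  induction x using TensorProduct.induction_on with
  | zero => simp
  | tmul a b =>
    rw [Algebra.TensorProduct.map_tmul, AlgHom.coe_id, id_eq, h.mu3_assoc_tmul,
      h.mu_comulAlg_apply, mu_tmul]
  | add x y hx hy =>
    rw [map_add, map_add, map_add, Pi.add_apply, map_add, Pi.add_apply, hx, hy]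

theorem coassoc_alg :
    (Algebra.TensorProduct.assoc (ratLocalizedAt p) (ratLocalizedAt p) (ratLocalizedAt p)
        ↥H ↥H ↥H).toAlgHom.comp
      ((Algebra.TensorProduct.map h.comulAlg (.id (ratLocalizedAt p) ↥H)).comp h.comulAlg)
      = (Algebra.TensorProduct.map (.id (ratLocalizedAt p) ↥H) h.comulAlg).comp h.comulAlg := by
  apply AlgHom.ext
  intro f
  apply h.mu3_injective
  funext ⟨s, t, u⟩
  simp only [AlgHom.comp_apply]
  rw [h.mu3_map_id_comul]
  erw [h.mu3_assoc_map_comul_id]
  rw [h.mu_comulAlg_apply, h.mu_comulAlg_apply, add_assoc]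

theorem val_lid_map_counit (x : ↥H ⊗[ratLocalizedAt p] ↥H) (t : T) :
    ((Algebra.TensorProduct.lid (ratLocalizedAt p) ↥H
        (Algebra.TensorProduct.map h.counitAlg (.id (ratLocalizedAt p) ↥H) x) : ↥H) : T → Qb) t
      = mu H x (0, t) := by
  induction x using TensorProduct.induction_on with
  | zero => simp
  | tmul a b =>
    rw [Algebra.TensorProduct.map_tmul, Algebra.TensorProduct.lid_tmul, AlgHom.coe_id, id_eq,
      mu_tmul]
    show (h.counitAlg a • (b : T → Qb)) t = _
    rw [Pi.smul_apply, Algebra.smul_def, h.algebraMap_counitAlg]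
  | add x y hx hy =>
    rw [map_add, map_add, map_add, Pi.add_apply]
    show ((_ : T → Qb) + _) t = _
    rw [Pi.add_apply, hx, hy]

theorem val_rid_map_counit (x : ↥H ⊗[ratLocalizedAt p] ↥H) (t : T) :
    ((Algebra.TensorProduct.rid (ratLocalizedAt p) (ratLocalizedAt p) ↥H
        (Algebra.TensorProduct.map (.id (ratLocalizedAt p) ↥H) h.counitAlg x) : ↥H) : T → Qb) t
      = mu H x (t, 0) := by
  induction x using TensorProduct.induction_on with
  | zero => simp
  | tmul a b =>
    rw [Algebra.TensorProduct.map_tmul, Algebra.TensorProduct.rid_tmul, AlgHom.coe_id, id_eq,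
      mu_tmul]
    show (h.counitAlg b • (a : T → Qb)) t = _
    rw [Pi.smul_apply, Algebra.smul_def, h.algebraMap_counitAlg, mul_comm]
  | add x y hx hy =>
    rw [map_add, map_add, map_add, Pi.add_apply]
    show ((_ : T → Qb) + _) t = _
    rw [Pi.add_apply, hx, hy]

theorem rTensor_alg :
    (Algebra.TensorProduct.map h.counitAlg (.id (ratLocalizedAt p) ↥H)).comp h.comulAlg
      = (Algebra.TensorProduct.lid (ratLocalizedAt p) ↥H).symm := by
  apply AlgHom.ext
  intro f
  apply (Algebra.TensorProduct.lid (ratLocalizedAt p) ↥H).injective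
  rw [AlgHom.comp_apply]
  erw [AlgEquiv.apply_symm_apply]
  apply Subtype.ext
  funext t
  rw [h.val_lid_map_counit, h.mu_comulAlg_apply, zero_add]

theorem lTensor_alg :
    (Algebra.TensorProduct.map (.id (ratLocalizedAt p) ↥H) h.counitAlg).comp h.comulAlg
      = (Algebra.TensorProduct.rid (ratLocalizedAt p) (ratLocalizedAt p) ↥H).symm := by
  apply AlgHom.ext
  intro f
  apply (Algebra.TensorProduct.rid (ratLocalizedAt p) (ratLocalizedAt p) ↥H).injective
  rw [AlgHom.comp_apply]
  erw [AlgEquiv.apply_symm_apply]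
  apply Subtype.ext
  funext t
  rw [h.val_rid_map_counit, h.mu_comulAlg_apply, add_zero]

/-- The bialgebra structure on `H`. -/
@[reducible]
def bialgebra : Bialgebra (ratLocalizedAt p) ↥H :=
  Bialgebra.ofAlgHom h.comulAlg h.counitAlg h.coassoc_alg h.rTensor_alg h.lTensor_alg

end OrderHyp

end Fermat.Agent.A3.H619
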