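/-
A3 / piece ORD (helper619): Hopf algebra structure on an order `H` satisfying `OrderHyp`,
cocommutativity.
-/
import Fermat.Agent.A3.H619.Bialg

set_option autoImplicit false
set_option linter.unusedSectionVars false

noncomputable section

namespace Fermat.Agent.A3.H619

open GaloisRep TensorProduct Module

variable {p : ℕ} {T : Type} [AddCommGroup T] [Finite T]
variable {H : Subalgebra (ratLocalizedAt p) (T → Qb)} {act : GQ → T → T}

namespace OrderHyp

variable (h : OrderHyp p T act H)
include h

theorem val_mul_rTensor (x : ↥H ⊗[ratLocalizedAt p] ↥H) (t : T) :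
    ((LinearMap.mul' (ratLocalizedAt p) ↥H
        ((h.antipodeAlg.toLinearMap).rTensor ↥H x) : ↥H) : T → Qb) t
      = mu H x (-t, t) := by
  induction x using TensorProduct.induction_on with
  | zero => simp
  | tmul a b =>
    rw [LinearMap.rTensor_tmul, LinearMap.mul'_apply, mu_tmul]
    rfl
  | add x y hx hy =>
    rw [map_add, map_add, map_add, Pi.add_apply]
    show ((_ : T → Qb) + _) t = _
    rw [Pi.add_apply, hx, hy]

theorem val_mul_lTensor (x : ↥H ⊗[ratLocalizedAt p] ↥H) (t : T) :
    ((LinearMap.mul' (ratLocalizedAt p) ↥H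
        ((h.antipodeAlg.toLinearMap).lTensor ↥H x) : ↥H) : T → Qb) t
      = mu H x (t, -t) := by
  induction x using TensorProduct.induction_on with
  | zero => simp
  | tmul a b =>
    rw [LinearMap.lTensor_tmul, LinearMap.mul'_apply, mu_tmul]
    rfl
  | add x y hx hy =>
    rw [map_add, map_add, map_add, Pi.add_apply]
    show ((_ : T → Qb) + _) t = _
    rw [Pi.add_apply, hx, hy]

/-- The Hopf algebra structure on `H`. -/
@[reducible]
def hopfAlgebra : HopfAlgebra (ratLocalizedAt p) ↥H :=
  letI := h.bialgebra
  { antipode := h.antipodeAlg.toLinearMap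
    mul_antipode_rTensor_comul := by
      apply LinearMap.ext
      intro f
      apply Subtype.ext
      funext t
      simp only [LinearMap.comp_apply]
      erw [h.val_mul_rTensor (h.comulAlg f) t]
      rw [h.mu_comulAlg_apply, neg_add_cancel]
      exact (h.algebraMap_counitAlg f).symm
    mul_antipode_lTensor_comul := by
      apply LinearMap.ext
      intro f
      apply Subtype.ext
      funext t
      simp only [LinearMap.comp_apply]
      erw [h.val_mul_lTensor (h.comulAlg f) t]
      rw [h.mu_comulAlg_apply, add_neg_cancel]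
      exact (h.algebraMap_counitAlg f).symm }

theorem mu_comm (x : ↥H ⊗[ratLocalizedAt p] ↥H) (s t : T) :
    mu H (TensorProduct.comm (ratLocalizedAt p) ↥H ↥H x) (s, t) = mu H x (t, s) := by
  induction x using TensorProduct.induction_on with
  | zero => simp
  | tmul a b =>
    rw [TensorProduct.comm_tmul, mu_tmul, mu_tmul, mul_comm]
  | add x y hx hy =>
    rw [map_add, map_add, map_add, Pi.add_apply, Pi.add_apply, hx, hy]

theorem isCocomm :
    letI := h.bialgebra
    Coalgebra.IsCocomm (ratLocalizedAt p) ↥H := by
  letI := h.bialgebra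
  refine ⟨?_⟩
  apply LinearMap.ext
  intro f
  apply h.mu_injective
  funext ⟨s, t⟩
  rw [LinearMap.comp_apply]
  erw [h.mu_comm (h.comulAlg f) s t]
  erw [h.mu_comulAlg_apply, h.mu_comulAlg_apply]
  rw [add_comm]

end OrderHyp

end Fermat.Agent.A3.H619
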