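/-
A3 / piece ORD (helper619): the `ℚ̄`-points of an order `H` satisfying `OrderHyp` are the
evaluations at the points of `T`.
-/
import Fermat.Agent.A3.H619.HopfAlg

set_option autoImplicit false
set_option linter.unusedSectionVars false

noncomputable section

namespace Fermat.Agent.A3.H619

open GaloisRep TensorProduct Module

variable {p : ℕ} {T : Type} [AddCommGroup T] [Finite T]
variable {H : Subalgebra (ratLocalizedAt p) (T → Qb)} {act : GQ → T → T}

/-- Evaluation at a point of `T`. -/
def evPt (H : Subalgebra (ratLocalizedAt p) (T → Qb)) (t : T) : ↥H →ₐ[ratLocalizedAt p] Qb :=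
  (Pi.evalAlgHom (ratLocalizedAt p) (fun _ : T => Qb) t).comp H.val

omit [AddCommGroup T] [Finite T] in
@[simp]
theorem evPt_apply (t : T) (f : ↥H) : evPt H t f = (f : T → Qb) t := rfl

namespace OrderHyp

variable (h : OrderHyp p T act H)
include h

theorem evPt_injective : Function.Injective (evPt H) := by
  intro s t hst
  by_contra hne
  obtain ⟨f, hf, hfne⟩ := h.sep s t hne
  exact hfne (by simpa using congrArg (fun φ : ↥H →ₐ[ratLocalizedAt p] Qb => φ ⟨f, hf⟩) hst)

/-- A `ℚ̄`-linear, unital, multiplicative functional on `T → ℚ̄` is an evaluation. -/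
theorem exists_eval_of_mul (Φ : (T → Qb) →ₗ[Qb] Qb) (h1 : Φ 1 = 1)
    (hmul : ∀ x y, Φ (x * y) = Φ x * Φ y) : ∃ t : T, ∀ f, Φ f = f t := by
  classical
  cases nonempty_fintype T
  have hsum : ∑ t, Φ (Pi.single t (1 : Qb)) = 1 := by
    have h2 : ∑ t, (Pi.single t (1 : Qb) : T → Qb) = 1 := by
      funext u
      simp [Finset.sum_apply, Pi.single_apply]
    rw [← map_sum, h2, h1]
  obtain ⟨t, ht⟩ : ∃ t, Φ (Pi.single t (1 : Qb)) ≠ 0 := by
    by_contra hcon
    push Not at hcon
    rw [Finset.sum_eq_zero (fun t _ => hcon t)] at hsum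
    exact zero_ne_one hsum
  refine ⟨t, fun f => ?_⟩
  have hf : f * Pi.single t (1 : Qb) = f t • Pi.single t (1 : Qb) := by
    funext u
    by_cases hu : u = t
    · subst hu; simp
    · simp [Pi.single_eq_of_ne hu]
  have := hmul f (Pi.single t (1 : Qb))
  rw [hf, map_smul, smul_eq_mul] at this
  exact (mul_right_cancel₀ ht this).symm

theorem evPt_surjective : Function.Surjective (evPt H) := by
  classical
  intro φ
  obtain ⟨ι, _, b, hb⟩ := h.isGood_val
  have key : ∀ f : ↥H, (f : T → Qb) = ∑ i, (algebraMap (ratLocalizedAt p) Qb (b.repr f i)) •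
      H.val.toLinearMap (b i) := by
    intro f
    have hrepr : f = ∑ i, b.repr f i • b i := (b.sum_repr _).symm
    have := congrArg (fun g : ↥H => H.val.toLinearMap g) hrepr
    simp only [map_sum, map_smul] at this
    refine this.trans ?_
    refine Finset.sum_congr rfl fun i _ => ?_
    rw [algebraMap_smul]
  -- the `ℚ̄`-basis
  have hspan : ⊤ ≤ Submodule.span Qb (Set.range fun i => H.val.toLinearMap (b i)) := by
    rw [← span_eq_top_of_separates H h.sep]
    apply Submodule.span_le.mpr
    intro f hf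
    change ((⟨f, hf⟩ : ↥H) : T → Qb) ∈ _
    rw [key]
    exact Submodule.sum_mem _ fun i _ =>
      Submodule.smul_mem _ _ (Submodule.subset_span ⟨i, rfl⟩)
  let 𝔅 : Basis ι Qb (T → Qb) := Basis.mk hb hspan
  have h𝔅 : ∀ i, 𝔅 i = H.val.toLinearMap (b i) := fun i => Basis.mk_apply hb hspan i
  let Φ : (T → Qb) →ₗ[Qb] Qb := 𝔅.constr Qb (fun i => φ (b i))
  have hΦb : ∀ i, Φ (H.val.toLinearMap (b i)) = φ (b i) := by
    intro i
    rw [← h𝔅 i]
    exact 𝔅.constr_basis Qb _ i
  -- `Φ` extends `φ`
  have hΦ : ∀ f : ↥H, Φ (f : T → Qb) = φ f := by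
    intro f
    have hrepr : f = ∑ i, b.repr f i • b i := (b.sum_repr _).symm
    rw [key f, map_sum]
    conv_rhs => rw [hrepr, map_sum]
    refine Finset.sum_congr rfl fun i _ => ?_
    rw [map_smul, hΦb, map_smul, smul_eq_mul, Algebra.smul_def]
  have hone : Φ 1 = 1 := by
    have := hΦ 1
    rw [map_one] at this
    exact this
  have hmul : ∀ x y, Φ (x * y) = Φ x * Φ y := by
    intro x y
    -- bilinearity: reduce to basis vectors
    have hxy : ∀ i j, Φ (𝔅 i * 𝔅 j) = Φ (𝔅 i) * Φ (𝔅 j) := by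
      intro i j
      rw [h𝔅, h𝔅]
      have := hΦ (b i * b j)
      rw [map_mul] at this
      rw [hΦb, hΦb, ← this]
      rfl
    have hy : ∀ i, Φ (𝔅 i * y) = Φ (𝔅 i) * Φ y := by
      intro i
      have : (Φ ∘ₗ LinearMap.mulLeft Qb (𝔅 i)) = (Φ (𝔅 i)) • Φ := by
        apply 𝔅.ext
        intro j
        simp only [LinearMap.comp_apply, LinearMap.mulLeft_apply, LinearMap.smul_apply,
          smul_eq_mul]
        exact hxy i j
      have := congrArg (fun L : (T → Qb) →ₗ[Qb] Qb => L y) this
      simpa using this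
    have : (Φ ∘ₗ LinearMap.mulRight Qb y) = (Φ y) • Φ := by
      apply 𝔅.ext
      intro i
      simp only [LinearMap.comp_apply, LinearMap.mulRight_apply, LinearMap.smul_apply,
        smul_eq_mul]
      rw [hy i, mul_comm]
    have := congrArg (fun L : (T → Qb) →ₗ[Qb] Qb => L x) this
    simp only [LinearMap.comp_apply, LinearMap.mulRight_apply, LinearMap.smul_apply,
      smul_eq_mul] at this
    rw [this, mul_comm]
  obtain ⟨t, ht⟩ := h.exists_eval_of_mul Φ hone hmul
  refine ⟨t, ?_⟩
  apply AlgHom.ext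
  intro f
  rw [evPt_apply, ← hΦ f, ht]

end OrderHyp

end Fermat.Agent.A3.H619
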