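/-
A3 / piece ORD (helper619): MAIN THEOREM.

`OrderHyp p T act H`  ⟹  `HasFlatModel p T act`, the conclusion of the frozen statement S19 (and of
`GaloisRepAdic.IsFlatAt`) for the finite Galois module `T`.
-/
import Fermat.Agent.A3.H619.Points

set_option autoImplicit false
set_option linter.unusedSectionVars false

noncomputable section

namespace Fermat.Agent.A3.H619

open GaloisRep TensorProduct Module

/-- The conclusion of S19 / of `IsFlatAt` for a Galois module `T`: a finite flat cocommutative
Hopf algebra over `ℤ_(p)` whose `ℚ̄`-points are `T`, additively and Galois-equivariantly. -/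
def HasFlatModel (p : ℕ) (T : Type) [AddCommGroup T] (act : GQ → T → T) : Prop :=
  ∃ (H : Type) (_ : CommRing H) (_ : HopfAlgebra (ratLocalizedAt p) H),
    Module.Finite (ratLocalizedAt p) H ∧ Module.Flat (ratLocalizedAt p) H ∧
    Coalgebra.IsCocomm (ratLocalizedAt p) H ∧
    ∃ e : WithConv (H →ₐ[ratLocalizedAt p] Qb) ≃ T,
      (∀ f g, e (f * g) = e f + e g) ∧
      ∀ (σ : GQ) (f g : WithConv (H →ₐ[ratLocalizedAt p] Qb)),
        (∀ h : H, g h = σ (f h)) → e g = act σ (e f)

variable {p : ℕ} {T : Type} [AddCommGroup T] [Finite T]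
variable {H : Subalgebra (ratLocalizedAt p) (T → Qb)} {act : GQ → T → T}

namespace OrderHyp

variable (h : OrderHyp p T act H)
include h

theorem lift_evPt (s t : T) (x : ↥H ⊗[ratLocalizedAt p] ↥H) :
    Algebra.TensorProduct.lift (evPt H s) (evPt H t) (fun _ _ => Commute.all _ _) x
      = mu H x (s, t) := by
  induction x using TensorProduct.induction_on with
  | zero => simp
  | tmul a b => simp
  | add x y hx hy => rw [map_add, map_add, Pi.add_apply, hx, hy]

/-- The bijection between points of `T` and `ℚ̄`-points of `H`. -/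
def ptEquiv : T ≃ WithConv (↥H →ₐ[ratLocalizedAt p] Qb) :=
  (Equiv.ofBijective (evPt H) ⟨h.evPt_injective, h.evPt_surjective⟩).trans
    (WithConv.equiv _).symm

theorem ptEquiv_apply (t : T) : h.ptEquiv t = WithConv.toConv (evPt H t) := rfl

theorem convMul_evPt (s t : T) :
    letI := h.hopfAlgebra
    (WithConv.toConv (evPt H s) * WithConv.toConv (evPt H t) :
      WithConv (↥H →ₐ[ratLocalizedAt p] Qb)) = WithConv.toConv (evPt H (s + t)) := by
  letI := h.hopfAlgebra
  apply WithConv.ext
  apply AlgHom.ext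
  intro c
  have := AlgHom.convMul_apply (WithConv.toConv (evPt H s)) (WithConv.toConv (evPt H t)) c
  erw [this]
  erw [h.lift_evPt s t (h.comulAlg c)]
  rw [h.mu_comulAlg_apply]
  rfl

/-- **ORD.**  An order satisfying (O0)-(O3) gives the S19-shaped conclusion. -/
theorem hasFlatModel : HasFlatModel p T act := by
  letI := h.hopfAlgebra
  have hfree := h.free
  refine ⟨↥H, inferInstance, h.hopfAlgebra, h.finite, Module.Flat.of_free, h.isCocomm,
    h.ptEquiv.symm, ?_, ?_⟩
  · intro f g
    obtain ⟨s, rfl⟩ := h.ptEquiv.surjective f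
    obtain ⟨t, rfl⟩ := h.ptEquiv.surjective g
    rw [Equiv.symm_apply_apply, Equiv.symm_apply_apply, h.ptEquiv_apply, h.ptEquiv_apply,
      h.convMul_evPt, ← h.ptEquiv_apply, Equiv.symm_apply_apply]
  · intro σ f g hfg
    obtain ⟨s, rfl⟩ := h.ptEquiv.surjective f
    obtain ⟨t, rfl⟩ := h.ptEquiv.surjective g
    rw [Equiv.symm_apply_apply, Equiv.symm_apply_apply]
    by_contra hne
    obtain ⟨c, hc, hcne⟩ := h.sep t (act σ s) hne
    apply hcne
    have := hfg ⟨c, hc⟩
    rw [h.equiv c hc σ s]
    exact this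

end OrderHyp

end Fermat.Agent.A3.H619
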