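/-
A3 / piece ORD (helper619): adapters between `HasFlatModel` and the frozen shapes
(`S19`, `GaloisRepAdic.IsFlatAt`).
-/
import Fermat.Agent.A3.H619.OrdMain
import Fermat.Prelude.Def_ModularCurve_ArithmeticGalois

set_option autoImplicit false

noncomputable section

namespace Fermat.Agent.A3.H619

open GaloisRep ModularCurve

/-- `IsFlatAt` is `HasFlatModel` for all finite levels. -/
theorem isFlatAt_iff {A : Type} [CommRing A] [IsLocalRing A] (ρ : GaloisRepAdic A) (p : ℕ) :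
    ρ.IsFlatAt p ↔ Finite (IsLocalRing.ResidueField A) ∧ ∀ I : Ideal A, Finite (A ⧸ I) →
      HasFlatModel p (ρ.V ⧸ (I • (⊤ : Submodule A ρ.V))) (fun σ => ρ.levelAction I σ) :=
  Iff.rfl

/-- The Galois action on the torsion of `J₀(N)`. -/
def torsAct (N : ℕ) (n : ℤ) (σ : GQ) (t : ↥(Submodule.torsionBy ℤ (JZero N) n)) :
    ↥(Submodule.torsionBy ℤ (JZero N) n) :=
  ⟨σ • (t : JZero N), by
    rw [Submodule.mem_torsionBy_iff]
    have := (Submodule.mem_torsionBy_iff _ _).mp t.2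
    rw [smul_comm n σ (t : JZero N), this, smul_zero]⟩

/-- The frozen statement S19 for `(N, ℓ, k)` is `HasFlatModel` for the `ℓ^k`-torsion of `J₀(N)`. -/
theorem s19_iff (N : ℕ) (ℓ : ℕ) (k : ℕ) :
    (∃ (H : Type) (_ : CommRing H) (_ : HopfAlgebra (GaloisRep.ratLocalizedAt ℓ) H),
      Module.Finite (GaloisRep.ratLocalizedAt ℓ) H ∧ Module.Flat (GaloisRep.ratLocalizedAt ℓ) H ∧
      Coalgebra.IsCocomm (GaloisRep.ratLocalizedAt ℓ) H ∧
      ∃ e : WithConv (H →ₐ[GaloisRep.ratLocalizedAt ℓ] AlgebraicClosure ℚ) ≃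
          ↥(Submodule.torsionBy ℤ (JZero N) ((ℓ : ℤ) ^ k)),
        (∀ f g, e (f * g) = e f + e g) ∧
        ∀ (σ : AlgebraicClosure ℚ ≃ₐ[ℚ] AlgebraicClosure ℚ)
          (f g : WithConv (H →ₐ[GaloisRep.ratLocalizedAt ℓ] AlgebraicClosure ℚ)),
          (∀ h : H, g h = σ (f h)) → ((e g : JZero N)) = σ • (e f : JZero N)) ↔
    HasFlatModel ℓ ↥(Submodule.torsionBy ℤ (JZero N) ((ℓ : ℤ) ^ k)) (torsAct N ((ℓ : ℤ) ^ k)) := by
  constructor
  · rintro ⟨H, i1, i2, h1, h2, h3, e, he1, he2⟩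
    exact ⟨H, i1, i2, h1, h2, h3, e, he1, fun σ f g hfg => Subtype.ext (he2 σ f g hfg)⟩
  · rintro ⟨H, i1, i2, h1, h2, h3, e, he1, he2⟩
    exact ⟨H, i1, i2, h1, h2, h3, e, he1, fun σ f g hfg => congrArg Subtype.val (he2 σ f g hfg)⟩

theorem torsAct_one (N : ℕ) (n : ℤ) (t : ↥(Submodule.torsionBy ℤ (JZero N) n)) :
    torsAct N n 1 t = t := Subtype.ext (one_smul _ _)

theorem torsAct_mul (N : ℕ) (n : ℤ) (σ τ : GQ) (t : ↥(Submodule.torsionBy ℤ (JZero N) n)) :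
    torsAct N n (σ * τ) t = torsAct N n σ (torsAct N n τ t) := Subtype.ext (mul_smul _ _ _)

theorem torsAct_zero (N : ℕ) (n : ℤ) (σ : GQ) : torsAct N n σ 0 = 0 :=
  Subtype.ext (smul_zero _)

end Fermat.Agent.A3.H619
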