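/-
A3 / piece ORD (helper619): coefficients of equivariant functions with respect to a `ℚ̄`-independent
family of equivariant functions are rational; if they are integral over `R`, they lie in `R`.
-/
import Fermat.Agent.A3.H619.Lattice

set_option autoImplicit false

noncomputable section

namespace Fermat.Agent.A3.H619

open GaloisRep Module

variable {p : ℕ} {X : Type}

instance isAlgebraic_ratLoc_Qb : Algebra.IsAlgebraic (ratLocalizedAt p) Qb :=
  ⟨fun x => (IsFractionRing.isAlgebraic_iff (ratLocalizedAt p) ℚ Qb).mpr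
    ((AlgebraicClosure.isAlgebraic ℚ).isAlgebraic x)⟩

theorem isIntegral_ratLoc_of_rat {q : ℚ} (h : IsIntegral (ratLocalizedAt p) (algebraMap ℚ Qb q)) :
    q ∈ ratLocalizedAt p :=
  mem_ratLoc_of_isIntegral p ((isIntegral_algebraMap_iff (algebraMap ℚ Qb).injective).mp h)

section

variable (act : GQ → X → X) (hact1 : ∀ t, act 1 t = t)
  (hactmul : ∀ (σ τ : GQ) (t : X), act (σ * τ) t = act σ (act τ t))

include hact1 hactmul

/-- Conjugating the coefficients of a linear combination of equivariant functions representing an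
equivariant function. -/
theorem combination_conj {κ : Type} [Fintype κ] (e : κ → (X → Qb))
    (he : ∀ k, IsEquivFun act (e k)) (F : X → Qb) (hF : IsEquivFun act F) (c : κ → Qb)
    (hFc : F = ∑ k, c k • e k) (σ : GQ) : F = ∑ k, σ (c k) • e k := by
  funext t
  have ht : act σ (act σ⁻¹ t) = t := by rw [← hactmul, mul_inv_cancel, hact1]
  have h0 := congrFun hFc (act σ⁻¹ t)
  simp only [Finset.sum_apply, Pi.smul_apply, smul_eq_mul] at h0 ⊢
  have h1 := congrArg σ h0
  rw [map_sum, ← hF σ (act σ⁻¹ t), ht] at h1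
  rw [h1]
  refine Finset.sum_congr rfl fun i _ => ?_
  rw [map_mul, ← he i σ (act σ⁻¹ t), ht]

/-- The coefficients are Galois-fixed. -/
theorem coeff_fixed {κ : Type} [Fintype κ] (e : κ → (X → Qb))
    (he : ∀ k, IsEquivFun act (e k)) (hind : LinearIndependent Qb e)
    (F : X → Qb) (hF : IsEquivFun act F) (c : κ → Qb)
    (hFc : F = ∑ k, c k • e k) (σ : GQ) (k : κ) : σ (c k) = c k := by
  have h1 := combination_conj act hact1 hactmul e he F hF c hFc σ
  have h2 : ∑ k, (σ (c k) - c k) • e k = 0 := by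
    simp only [sub_smul, Finset.sum_sub_distrib]
    rw [← h1, ← hFc, sub_self]
  exact sub_eq_zero.mp (Fintype.linearIndependent_iff.mp hind _ h2 k)

/-- The coefficients are rational. -/
theorem coeff_rat {κ : Type} [Fintype κ] (e : κ → (X → Qb))
    (he : ∀ k, IsEquivFun act (e k)) (hind : LinearIndependent Qb e)
    (F : X → Qb) (hF : IsEquivFun act F) (c : κ → Qb)
    (hFc : F = ∑ k, c k • e k) (k : κ) : ∃ q : ℚ, algebraMap ℚ Qb q = c k :=
  exists_rat_of_fixed _ fun σ => coeff_fixed act hact1 hactmul e he hind F hF c hFc σ k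

/-- Integral coefficients lie in `R`. -/
theorem coeff_int {κ : Type} [Fintype κ] (e : κ → (X → Qb))
    (he : ∀ k, IsEquivFun act (e k)) (hind : LinearIndependent Qb e)
    (F : X → Qb) (hF : IsEquivFun act F) (c : κ → Qb)
    (hFc : F = ∑ k, c k • e k) (hc : ∀ k, IsIntegral (ratLocalizedAt p) (c k)) :
    ∃ r : κ → ratLocalizedAt p, F = ∑ k, r k • e k := by
  have h1 : ∀ k, ∃ r : ratLocalizedAt p, algebraMap (ratLocalizedAt p) Qb r = c k := by
    intro k
    obtain ⟨q, hq⟩ := coeff_rat act hact1 hactmul e he hind F hF c hFc k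
    have hk := hc k
    rw [← hq] at hk
    exact ⟨⟨q, isIntegral_ratLoc_of_rat hk⟩, hq⟩
  choose r hr using h1
  refine ⟨r, ?_⟩
  rw [hFc]
  refine Finset.sum_congr rfl fun k _ => ?_
  rw [← hr k, algebraMap_smul]

end

end Fermat.Agent.A3.H619
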