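/-
A3 / piece ORD (helper619): finiteness.  An `R`-module of Galois-equivariant functions
`T → ℚ̄` (`T` finite) with values integral over `R = ratLocalizedAt p` is finitely generated.
-/
import Fermat.Agent.A3.H619.Coeff

set_option autoImplicit false

noncomputable section

namespace Fermat.Agent.A3.H619

open GaloisRep Module

variable {p : ℕ} {T : Type}

/-- Multiplication by a nonzero element of `R` is injective on functions. -/
theorem lsmul_injective_of_ne_zero (d : ratLocalizedAt p) (hd : d ≠ 0) :
    Function.Injective (LinearMap.lsmul (ratLocalizedAt p) (T → Qb) d) := by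
  intro f g hfg
  funext t
  have h1 := congrFun hfg t
  simp only [LinearMap.lsmul_apply, Pi.smul_apply, Algebra.smul_def] at h1
  have h2 : algebraMap (ratLocalizedAt p) Qb d ≠ 0 := fun h =>
    hd (algebraMap_ratLoc_Qb_injective p (h.trans (map_zero _).symm))
  exact mul_left_cancel₀ h2 h1

variable [Finite T] (act : GQ → T → T) (hact1 : ∀ t, act 1 t = t)
  (hactmul : ∀ (σ τ : GQ) (t : T), act (σ * τ) t = act σ (act τ t))

include hact1 hactmul

/-- **Finiteness.**  An `R`-submodule of `T → ℚ̄` consisting of equivariant functions with integral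
values is finitely generated. -/
theorem fg_of_equivariant_integral (N : Submodule (ratLocalizedAt p) (T → Qb))
    (hequiv : ∀ f ∈ N, IsEquivFun act f)
    (hint : ∀ f ∈ N, ∀ t, IsIntegral (ratLocalizedAt p) (f t)) : N.FG := by
  classical
  cases nonempty_fintype T
  -- a maximal `ℚ̄`-independent subset
  obtain ⟨b, hbN, hspan, hb⟩ := exists_linearIndependent Qb (N : Set (T → Qb))
  have hbfin : b.Finite := hb.setFinite
  let _ : Fintype ↥b := hbfin.fintype
  let e : ↥b → (T → Qb) := Subtype.val
  have he : ∀ k, IsEquivFun act (e k) := fun k => hequiv _ (hbN k.2)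
  -- a left inverse of the linear combination map
  let L : (↥b → Qb) →ₗ[Qb] (T → Qb) := Fintype.linearCombination Qb e
  have hL : Function.Injective L := hb.fintypeLinearCombination_injective
  obtain ⟨G, hG⟩ := LinearMap.exists_leftInverse_of_injective L (LinearMap.ker_eq_bot.mpr hL)
  -- clear the denominators of the matrix of `G`
  let w : T × ↥b → Qb := fun tk => G (Pi.single tk.1 (1 : Qb)) tk.2
  obtain ⟨d, hd0, hd⟩ := Algebra.IsAlgebraic.exists_integral_multiples (ratLocalizedAt p)
    (Finset.univ.image w)
  have hdw : ∀ t k, IsIntegral (ratLocalizedAt p) (d • w (t, k)) := fun t k =>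
    hd _ (Finset.mem_image_of_mem w (Finset.mem_univ (t, k)))
  -- `d • N` is contained in the `R`-span of `b`
  have hle : N.map (LinearMap.lsmul (ratLocalizedAt p) (T → Qb) d)
      ≤ Submodule.span (ratLocalizedAt p) (Set.range e) := by
    rintro _ ⟨F, hF, rfl⟩
    have hFspan : F ∈ Submodule.span Qb (Set.range e) := by
      have : Set.range e = b := Subtype.range_coe
      rw [this, hspan]
      exact Submodule.subset_span hF
    obtain ⟨c, hc⟩ := (Submodule.mem_span_range_iff_exists_fun Qb).mp hFspan
    have hcG : c = G F := by
      have h1 : L c = F := by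
        rw [← hc]
        simp [L, Fintype.linearCombination_apply]
      have h2 := congrArg (fun g => g c) hG
      simp only [LinearMap.comp_apply, LinearMap.id_apply] at h2
      rw [← h1]
      exact h2.symm
    have hFsum : F = ∑ t, F t • (Pi.single t (1 : Qb) : T → Qb) := by
      funext u
      simp [Finset.sum_apply, Pi.single_apply]
    have hck : ∀ k, c k = ∑ t, F t * w (t, k) := by
      intro k
      rw [hcG]
      conv_lhs => rw [hFsum]
      rw [map_sum, Finset.sum_apply]
      refine Finset.sum_congr rfl fun t _ => ?_
      rw [map_smul, Pi.smul_apply, smul_eq_mul]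
    -- `d • F = ∑ (d • c k) • e k` with integral coefficients
    have hdF : (d • F : T → Qb) = ∑ k, (d • c k) • e k := by
      rw [← hc, Finset.smul_sum]
      refine Finset.sum_congr rfl fun k _ => ?_
      rw [smul_assoc]
    have hdFeq : IsEquivFun act (d • F : T → Qb) := hequiv _ (N.smul_mem d hF)
    have hcint : ∀ k, IsIntegral (ratLocalizedAt p) (d • c k) := by
      intro k
      rw [hck k, Finset.smul_sum]
      refine IsIntegral.sum _ fun t _ => ?_
      have h3 : d • (F t * w (t, k)) = F t * (d • w (t, k)) := by
        rw [Algebra.smul_def, Algebra.smul_def]; ring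
      rw [h3]
      exact (hint F hF t).mul (hdw t k)
    obtain ⟨r, hr⟩ := coeff_int act hact1 hactmul e he hb (d • F) hdFeq _ hdF hcint
    show d • F ∈ _
    rw [hr]
    exact Submodule.sum_mem _ fun k _ =>
      Submodule.smul_mem _ _ (Submodule.subset_span (Set.mem_range_self k))
  have hfg : (Submodule.span (ratLocalizedAt p) (Set.range e)).FG :=
    Submodule.fg_span (Set.finite_range e)
  exact Submodule.fg_of_fg_map_injective _ (lsmul_injective_of_ne_zero d hd0) (hfg.of_le hle)

end Fermat.Agent.A3.H619
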