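/-
A3 / piece ORD (helper619): **the ORD block** `Fermat.Agent.S19.OrdStatement`.

An `OrderDatum ℓ M act` (frozen interface `Fermat/Agent/S19/Defs.lean`) on a finite module `M`
gives a `HopfModel ℓ M act`.  The order is `H = ℤ_(ℓ)[gens] ⊆ (M → ℚ̄)`:

* (O0) equivariance and integrality of values pass from `gens` to `H`;
* (O1) `H` is finitely generated (`fg_of_equivariant_integral`);
* (O2) `H` separates points;
* (O3) descent from `Z̄_(ℓ)` to `ℤ_(ℓ)`: `f (s + t)` is a `Z̄_(ℓ)`-combination of a `ℤ_(ℓ)`-basis of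
  `H ⊗ H`, which is `ℚ̄`-independent, so the coefficients are Galois-fixed and integral.
-/
import Fermat.Agent.A3.H619.OrdMain
import Fermat.Agent.A3.H619.MaxOrder
import Fermat.Agent.S19.Defs

set_option autoImplicit false

noncomputable section

namespace Fermat.Agent.A3.H619

open GaloisRep TensorProduct Module

variable {p : ℕ} {T : Type}

/-- The diagonal action on pairs. -/
def act₂ (act : GQ → T → T) (σ : GQ) (st : T × T) : T × T := (act σ st.1, act σ st.2)

section Mu

variable (H : Subalgebra (ratLocalizedAt p) (T → Qb))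

/-- Every element of the image of `H ⊗ H` is a finite sum of products. -/
theorem exists_sum_of_tensor (x : ↥H ⊗[ratLocalizedAt p] ↥H) :
    ∃ (n : ℕ) (a b : Fin n → (T → Qb)), (∀ i, a i ∈ H) ∧ (∀ i, b i ∈ H) ∧
      ∀ s t, mu H x (s, t) = ∑ i, a i s * b i t := by
  induction x using TensorProduct.induction_on with
  | zero =>
    exact ⟨0, Fin.elim0, Fin.elim0, fun i => i.elim0, fun i => i.elim0, fun s t => by simp⟩
  | tmul a b =>
    exact ⟨1, fun _ => a, fun _ => b, fun _ => a.2, fun _ => b.2, fun s t => by simp⟩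
  | add x y hx hy =>
    obtain ⟨n, a, b, ha, hb, hab⟩ := hx
    obtain ⟨m, a', b', ha', hb', hab'⟩ := hy
    refine ⟨n + m, Fin.append a a', Fin.append b b', ?_, ?_, ?_⟩
    · intro i
      refine Fin.addCases (fun j => ?_) (fun j => ?_) i
      · rw [Fin.append_left]; exact ha j
      · rw [Fin.append_right]; exact ha' j
    · intro i
      refine Fin.addCases (fun j => ?_) (fun j => ?_) i
      · rw [Fin.append_left]; exact hb j
      · rw [Fin.append_right]; exact hb' j
    · intro s t
      rw [map_add, Pi.add_apply, hab, hab', Fin.sum_univ_add]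
      simp only [Fin.append_left, Fin.append_right]

/-- Functions in the image of `H ⊗ H` are equivariant for the diagonal action. -/
theorem isEquivFun_mu {act : GQ → T → T} (hequiv : ∀ f ∈ H, IsEquivFun act f)
    (x : ↥H ⊗[ratLocalizedAt p] ↥H) : IsEquivFun (act₂ act) (mu H x) := by
  induction x using TensorProduct.induction_on with
  | zero => intro σ st; simp
  | tmul a b =>
    intro σ st
    rw [mu_tmul, mu_tmul, map_mul]
    show (a : T → Qb) (act σ st.1) * (b : T → Qb) (act σ st.2) = _
    rw [hequiv a.1 a.2, hequiv b.1 b.2]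
  | add x y hx hy =>
    intro σ st
    rw [map_add, Pi.add_apply, Pi.add_apply, hx, hy, map_add]

end Mu

theorem algebraMap_ratLoc_fixed (r : ratLocalizedAt p) (σ : GQ) :
    σ (algebraMap (ratLocalizedAt p) Qb r) = algebraMap (ratLocalizedAt p) Qb r := by
  rw [IsScalarTower.algebraMap_apply (ratLocalizedAt p) ℚ Qb]
  exact σ.commutes _

section Datum

variable {ℓ : ℕ} {M : Type} [AddCommGroup M] {act : GQ → M → M}
  (D : Fermat.Agent.S19.OrderDatum ℓ M act)

/-- The order generated by the generators of an order datum. -/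
def orderOf : Subalgebra (ratLocalizedAt ℓ) (M → Qb) :=
  Algebra.adjoin (ratLocalizedAt ℓ) D.gens

include D

theorem datum_act_one (m : M) : act 1 m = m :=
  D.separates _ _ fun f hf => by rw [D.equivariant f hf]; rfl

theorem datum_act_mul (σ τ : GQ) (m : M) : act (σ * τ) m = act σ (act τ m) :=
  D.separates _ _ fun f hf => by
    rw [D.equivariant f hf, D.equivariant f hf, D.equivariant f hf]; rfl

theorem datum_act_zero (σ : GQ) : act σ 0 = 0 := by
  have := D.act_add σ 0 0
  rw [add_zero] at this
  simpa using this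

theorem datum_equiv : ∀ f ∈ orderOf D, IsEquivFun act f := by
  intro f hf
  induction hf using Algebra.adjoin_induction with
  | mem f hf => exact D.equivariant f hf
  | algebraMap r =>
    intro σ m
    rw [Pi.algebraMap_apply, Pi.algebraMap_apply, algebraMap_ratLoc_fixed]
  | add f g _ _ hf hg =>
    intro σ m
    rw [Pi.add_apply, Pi.add_apply, hf, hg, map_add]
  | mul f g _ _ hf hg =>
    intro σ m
    rw [Pi.mul_apply, Pi.mul_apply, hf, hg, map_mul]

theorem datum_integral : ∀ f ∈ orderOf D, ∀ m, IsIntegral (ratLocalizedAt ℓ) (f m) := by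
  intro f hf
  induction hf using Algebra.adjoin_induction with
  | mem f hf => exact D.integral f hf
  | algebraMap r =>
    intro m
    rw [Pi.algebraMap_apply]
    exact isIntegral_algebraMap
  | add f g _ _ hf hg =>
    intro m
    rw [Pi.add_apply]
    exact (hf m).add (hg m)
  | mul f g _ _ hf hg =>
    intro m
    rw [Pi.mul_apply]
    exact (hf m).mul (hg m)

theorem datum_sep (s t : M) (hst : s ≠ t) : ∃ f ∈ orderOf D, f s ≠ f t := by
  by_contra hne
  push Not at hne
  exact hst (D.separates s t fun f hf => hne f (Algebra.subset_adjoin hf))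

theorem datum_preOrderHyp [Finite M] : PreOrderHyp ℓ M act (orderOf D) where
  act_one := datum_act_one D
  act_mul := datum_act_mul D
  equiv := datum_equiv D
  fg := fg_of_equivariant_integral act (datum_act_one D) (datum_act_mul D) _ (datum_equiv D)
    (datum_integral D)
  sep := datum_sep D

/-- `f (s + t)` lies in the `Z̄_(ℓ)`-span of the image of `H ⊗ H`. -/
theorem datum_add_mem_span (f : M → Qb) (hf : f ∈ D.gens) :
    (fun st : M × M => f (st.1 + st.2)) ∈
      Submodule.span (Fermat.Agent.S19.Zb ℓ) (Set.range (mu (orderOf D))) := by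
  set Λ : Submodule (Fermat.Agent.S19.Zb ℓ) (M × M → Qb) :=
    Submodule.span (Fermat.Agent.S19.Zb ℓ) (Set.range (mu (orderOf D))) with hΛ
  have hone : (1 : M × M → Qb) ∈ Λ :=
    Submodule.subset_span ⟨1, map_one _⟩
  have hmul : ∀ x ∈ Λ, ∀ y ∈ Λ, x * y ∈ Λ := by
    intro x hx y hy
    have h1 : x * y ∈ Λ * Λ := Submodule.mul_mem_mul hx hy
    have h2 : Λ * Λ ≤ Λ := by
      rw [hΛ, Submodule.span_mul_span]
      apply Submodule.span_mono
      rintro _ ⟨_, ⟨a, rfl⟩, _, ⟨b, rfl⟩, rfl⟩
      exact ⟨a * b, map_mul _ _ _⟩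
    exact h2 h1
  have key : ∀ g ∈ Algebra.adjoin (Fermat.Agent.S19.Zb ℓ) (Fermat.Agent.S19.coordFunctions D.gens),
      g ∈ Λ := by
    intro g hg
    induction hg using Algebra.adjoin_induction with
    | mem g hg =>
      rcases hg with ⟨h, hh, rfl⟩ | ⟨h, hh, rfl⟩
      · refine Submodule.subset_span
          ⟨(⟨h, Algebra.subset_adjoin hh⟩ : ↥(orderOf D)) ⊗ₜ[ratLocalizedAt ℓ] 1, ?_⟩
        funext st
        rw [mu_tmul]
        simp
      · refine Submodule.subset_span
          ⟨(1 : ↥(orderOf D)) ⊗ₜ[ratLocalizedAt ℓ] ⟨h, Algebra.subset_adjoin hh⟩, ?_⟩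
        funext st
        rw [mu_tmul]
        simp
    | algebraMap r =>
      rw [Algebra.algebraMap_eq_smul_one]
      exact Λ.smul_mem r hone
    | add x y _ _ hx hy => exact Λ.add_mem hx hy
    | mul x y _ _ hx hy => exact hmul x hx y hy
  exact key _ (D.add_mem f hf)

variable [Finite M]

/-- (O3) for the generators: descent of the coefficients from `Z̄_(ℓ)` to `ℤ_(ℓ)`. -/
theorem datum_add_mem_range (f : M → Qb) (hf : f ∈ D.gens) :
    (fun st : M × M => f (st.1 + st.2)) ∈ (mu (orderOf D)).range := by
  have hpre := datum_preOrderHyp D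
  obtain ⟨κ, _, B, hB⟩ := hpre.isGood_val.box hpre.isGood_val
  rw [← mu_toLinearMap] at hB
  let e : κ → (M × M → Qb) := fun k => mu (orderOf D) (B k)
  have hBe : LinearIndependent Qb e := hB
  have he : ∀ k, IsEquivFun (act₂ act) (e k) := fun k => isEquivFun_mu _ (datum_equiv D) (B k)
  -- the diagonal action is an action
  have h1 : ∀ st : M × M, act₂ act 1 st = st := fun st =>
    Prod.ext (datum_act_one D st.1) (datum_act_one D st.2)
  have hm : ∀ (σ τ : GQ) (st : M × M), act₂ act (σ * τ) st = act₂ act σ (act₂ act τ st) :=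
    fun σ τ st => Prod.ext (datum_act_mul D σ τ st.1) (datum_act_mul D σ τ st.2)
  -- `F` is equivariant
  set F : M × M → Qb := fun st => f (st.1 + st.2) with hF
  have hFeq : IsEquivFun (act₂ act) F := by
    intro σ st
    show f (act σ st.1 + act σ st.2) = σ (f (st.1 + st.2))
    rw [← D.act_add, D.equivariant f hf]
  -- integral coefficients
  have hcoef : ∀ g ∈ Submodule.span (Fermat.Agent.S19.Zb ℓ) (Set.range (mu (orderOf D))),
      ∃ c : κ → Qb, (∀ k, IsIntegral (ratLocalizedAt ℓ) (c k)) ∧ g = ∑ k, c k • e k := by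
    intro g hg
    induction hg using Submodule.span_induction with
    | mem g hg =>
      obtain ⟨x, rfl⟩ := hg
      refine ⟨fun k => algebraMap (ratLocalizedAt ℓ) Qb (B.repr x k),
        fun k => isIntegral_algebraMap, ?_⟩
      conv_lhs => rw [← B.sum_repr x]
      rw [map_sum]
      refine Finset.sum_congr rfl fun k _ => ?_
      rw [map_smul, algebraMap_smul]
    | zero => exact ⟨fun _ => 0, fun _ => isIntegral_zero, by simp⟩
    | add x y _ _ hx hy =>
      obtain ⟨c, hc, rfl⟩ := hx
      obtain ⟨c', hc', rfl⟩ := hy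
      refine ⟨fun k => c k + c' k, fun k => (hc k).add (hc' k), ?_⟩
      simp only [add_smul, Finset.sum_add_distrib]
    | smul a x _ hx =>
      obtain ⟨c, hc, rfl⟩ := hx
      refine ⟨fun k => (a : Qb) * c k, fun k => a.2.mul (hc k), ?_⟩
      rw [Subalgebra.smul_def, Finset.smul_sum]
      refine Finset.sum_congr rfl fun k _ => ?_
      rw [smul_smul]
  obtain ⟨c, hc, hFc⟩ := hcoef F (datum_add_mem_span D f hf)
  obtain ⟨r, hr⟩ := coeff_int (act₂ act) h1 hm e he hBe F hFeq c hFc hc
  refine (AlgHom.mem_range _).mpr ⟨∑ k, r k • B k, ?_⟩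
  rw [hr, map_sum]
  refine Finset.sum_congr rfl fun k _ => ?_
  rw [map_smul]

/-- (O3) for all of `H`. -/
theorem datum_comul_mem_range : ∀ f ∈ orderOf D,
    (fun st : M × M => f (st.1 + st.2)) ∈ (mu (orderOf D)).range := by
  have hle : orderOf D ≤ Subalgebra.comap (pullAlg ℓ (fun st : M × M => st.1 + st.2))
      (mu (orderOf D)).range := by
    refine Algebra.adjoin_le ?_
    intro f hf
    exact datum_add_mem_range D f hf
  exact fun f hf => hle hf

/-- The order of an order datum satisfies the hypotheses of piece ORD. -/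
theorem datum_orderHyp : OrderHyp ℓ M act (orderOf D) where
  toPreOrderHyp := datum_preOrderHyp D
  act_zero := datum_act_zero D
  comul := by
    intro f hf
    obtain ⟨x, hx⟩ := (AlgHom.mem_range _).mp (datum_comul_mem_range D f hf)
    obtain ⟨n, a, b, ha, hb, hab⟩ := exists_sum_of_tensor (orderOf D) x
    refine ⟨n, a, b, ha, hb, fun s t => ?_⟩
    rw [← hab, hx]

end Datum

/-- **ORD block.**  An order datum on a finite module gives a Hopf model. -/
theorem ord : Fermat.Agent.S19.OrdStatement := by
  intro ℓ _ M _ _ act hD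
  obtain ⟨D⟩ := hD
  exact (datum_orderHyp D).hasFlatModel

end Fermat.Agent.A3.H619
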