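/-
A3 / node UNR (helper619): a valuation subring `V` of `ℚ̄` in which `ℓ` is not a unit satisfies
`V ∩ ℚ = ℤ_(ℓ)`; values of Galois-equivariant `V`-valued functions on a finite Galois set are
integral over `ℤ_(ℓ)`.
-/
import Fermat.Agent.A3.H619.Coeff

set_option autoImplicit false

noncomputable section

namespace Fermat.Agent.A3.H619

open GaloisRep Polynomial

variable {ℓ : ℕ} (V : ValuationSubring Qb)

section

variable (hV : (ℓ : Qb) ∈ V.nonunits)
include hV

/-- An integer prime to `ℓ` has valuation `1`. -/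
theorem valuation_natCast_of_coprime {d : ℕ} (hd : d.Coprime ℓ) : V.valuation (d : Qb) = 1 := by
  obtain ⟨a, b, hab⟩ := Nat.isCoprime_iff_coprime.mpr hd
  have h1 : (a : Qb) * (d : Qb) = 1 - (b : Qb) * (ℓ : Qb) := by
    have := congrArg (Int.cast : ℤ → Qb) hab
    push_cast at this
    linear_combination this
  have h2 : V.valuation ((b : Qb) * (ℓ : Qb)) < 1 := by
    rw [map_mul]
    have hb : V.valuation (b : Qb) ≤ 1 := (V.valuation_le_one_iff _).mpr (intCast_mem V b)
    have hl : V.valuation (ℓ : Qb) < 1 := (V.mem_nonunits_iff).mp hV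
    calc V.valuation (b : Qb) * V.valuation (ℓ : Qb) ≤ 1 * V.valuation (ℓ : Qb) :=
          mul_le_mul_left hb _
      _ = V.valuation (ℓ : Qb) := one_mul _
      _ < 1 := hl
  have h3 : V.valuation ((a : Qb) * (d : Qb)) = 1 := by
    rw [h1]; exact Valuation.map_one_sub_of_lt _ h2
  rw [map_mul] at h3
  have ha : V.valuation (a : Qb) ≤ 1 := (V.valuation_le_one_iff _).mpr (intCast_mem V a)
  have hd' : V.valuation (d : Qb) ≤ 1 := (V.valuation_le_one_iff _).mpr (natCast_mem V d)
  refine le_antisymm hd' ?_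
  calc (1 : _) = V.valuation (a : Qb) * V.valuation (d : Qb) := h3.symm
    _ ≤ 1 * V.valuation (d : Qb) := mul_le_mul_left ha _
    _ = V.valuation (d : Qb) := one_mul _

/-- `ℤ_(ℓ) ⊆ V`. -/
theorem rat_mem_val_of_mem_ratLoc {q : ℚ} (hq : q ∈ ratLocalizedAt ℓ) :
    algebraMap ℚ Qb q ∈ V := by
  have hd : q.den.Coprime ℓ := hq
  have h1 : algebraMap ℚ Qb q = (q.num : Qb) * ((q.den : Qb))⁻¹ := by
    conv_lhs => rw [← Rat.num_div_den q]
    rw [map_div₀, div_eq_mul_inv]
    simp
  rw [h1]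
  refine V.mul_mem _ _ (intCast_mem V _) ?_
  apply (V.valuation_le_one_iff _).mp
  rw [map_inv₀, valuation_natCast_of_coprime V hV hd, inv_one]

theorem algebraMap_ratLoc_mem_val (r : ratLocalizedAt ℓ) :
    algebraMap (ratLocalizedAt ℓ) Qb r ∈ V :=
  rat_mem_val_of_mem_ratLoc V hV r.2

variable [Fact ℓ.Prime]

/-- `V ∩ ℚ ⊆ ℤ_(ℓ)`. -/
theorem mem_ratLoc_of_mem_val {q : ℚ} (hq : algebraMap ℚ Qb q ∈ V) : q ∈ ratLocalizedAt ℓ := by
  have hℓ : ℓ.Prime := Fact.out
  show q.den.Coprime ℓ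
  rw [Nat.coprime_comm, hℓ.coprime_iff_not_dvd]
  intro hdvd
  obtain ⟨k, hk⟩ := hdvd
  -- the numerator is prime to `ℓ`
  have hnum : (q.num.natAbs).Coprime ℓ := by
    rw [Nat.coprime_comm, hℓ.coprime_iff_not_dvd]
    intro h2
    have h3 : ℓ ∣ Nat.gcd q.num.natAbs q.den := Nat.dvd_gcd h2 ⟨k, hk⟩
    rw [q.reduced] at h3
    exact hℓ.one_lt.ne' (Nat.dvd_one.mp h3)
  have hv1 : V.valuation ((q.num.natAbs : ℕ) : Qb) = 1 :=
    valuation_natCast_of_coprime V hV hnum
  have hv2 : V.valuation ((q.num : ℤ) : Qb) = 1 := by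
    rcases Int.natAbs_eq q.num with h | h
    · rw [h]; simpa using hv1
    · rw [h]; simpa using hv1
  -- `q * den = num`
  have h4 : algebraMap ℚ Qb q * (q.den : Qb) = (q.num : Qb) := by
    have h5 : algebraMap ℚ Qb (q * (q.den : ℚ)) = algebraMap ℚ Qb (q.num : ℚ) :=
      congrArg _ (Rat.mul_den_eq_num q)
    rw [map_mul, map_natCast, map_intCast] at h5
    exact h5
  have h6 : V.valuation (q.den : Qb) < 1 := by
    rw [hk]
    push_cast
    rw [map_mul]
    have hl : V.valuation (ℓ : Qb) < 1 := (V.mem_nonunits_iff).mp hV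
    have hk' : V.valuation (k : Qb) ≤ 1 := (V.valuation_le_one_iff _).mpr (natCast_mem V k)
    calc V.valuation (ℓ : Qb) * V.valuation (k : Qb) ≤ V.valuation (ℓ : Qb) * 1 :=
          mul_le_mul_right hk' _
      _ = V.valuation (ℓ : Qb) := mul_one _
      _ < 1 := hl
  have h7 : V.valuation (algebraMap ℚ Qb q) ≤ 1 := (V.valuation_le_one_iff _).mpr hq
  have h8 : V.valuation ((q.num : ℤ) : Qb) < 1 := by
    rw [← h4, map_mul]
    calc V.valuation (algebraMap ℚ Qb q) * V.valuation (q.den : Qb)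
        ≤ 1 * V.valuation (q.den : Qb) := mul_le_mul_left h7 _
      _ = V.valuation (q.den : Qb) := one_mul _
      _ < 1 := h6
  rw [hv2] at h8
  exact lt_irrefl _ h8

end

section Integral

variable {M : Type} [Finite M] [Fact ℓ.Prime] (hV : (ℓ : Qb) ∈ V.nonunits)
  (act : GQ → M → M) (hact1 : ∀ t, act 1 t = t)
  (hactmul : ∀ (σ τ : GQ) (t : M), act (σ * τ) t = act σ (act τ t))

include hV hact1 hactmul

/-- Values of equivariant `V`-valued functions are integral over `ℤ_(ℓ)`. -/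
theorem isIntegral_of_equivariant_valued (h : M → Qb) (hequiv : IsEquivFun act h)
    (hval : ∀ m, h m ∈ V) (m : M) : IsIntegral (ratLocalizedAt ℓ) (h m) := by
  classical
  cases nonempty_fintype M
  set P : Qb[X] := ∏ m' : M, (X - C (h m')) with hP
  have hmonic : P.Monic := monic_prod_X_sub_C _ _
  -- coefficients in `V`
  have hPV : ∀ n, P.coeff n ∈ V := by
    intro n
    have h1 : P = (∏ m' : M, (X - C (⟨h m', hval m'⟩ : V))).map V.subtype := by
      rw [Polynomial.map_prod]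
      refine Finset.prod_congr rfl fun m' _ => ?_
      simp
    rw [h1, coeff_map]
    exact Subtype.property _
  -- coefficients Galois-fixed
  have hbij : ∀ σ : GQ, Function.Bijective (act σ) := by
    intro σ
    refine Function.bijective_iff_has_inverse.mpr ⟨act σ⁻¹, fun t => ?_, fun t => ?_⟩
    · rw [← hactmul, inv_mul_cancel, hact1]
    · rw [← hactmul, mul_inv_cancel, hact1]
  have hPσ : ∀ σ : GQ, P.map (σ : Qb →+* Qb) = P := by
    intro σ
    rw [hP, Polynomial.map_prod]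
    rw [← (hbij σ).prod_comp (fun m' => X - C (h m'))]
    refine Finset.prod_congr rfl fun m' _ => ?_
    rw [Polynomial.map_sub, map_X, map_C, hequiv σ m']
    rfl
  have hfix : ∀ n (σ : GQ), σ (P.coeff n) = P.coeff n := by
    intro n σ
    have := congrArg (fun Q : Qb[X] => Q.coeff n) (hPσ σ)
    simpa [coeff_map] using this
  -- lift to `ℤ_(ℓ)`
  have hlift : P ∈ lifts (algebraMap (ratLocalizedAt ℓ) Qb) := by
    rw [lifts_iff_coeff_lifts]
    intro n
    obtain ⟨q, hq⟩ := exists_rat_of_fixed (P.coeff n) (hfix n)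
    have hqV : algebraMap ℚ Qb q ∈ V := by rw [hq]; exact hPV n
    exact ⟨⟨q, mem_ratLoc_of_mem_val V hV hqV⟩, hq⟩
  obtain ⟨Q, hQ, -, hQm⟩ := lifts_and_natDegree_eq_and_monic hlift hmonic
  refine ⟨Q, hQm, ?_⟩
  rw [← eval_map, hQ, hP, eval_prod]
  exact Finset.prod_eq_zero (Finset.mem_univ m) (by simp)

end Integral

end Fermat.Agent.A3.H619
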