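/-
A3 / node UNR, piece **UC** (helper619): `Fermat.Agent.S19.Unr.CoeffStatement`.

A local order `B` (over a valuation ring `V | ℓ` of `ℚ̄`) which is spanned over `V` by its
Galois-equivariant elements gives global coordinates (`CoordDatum`).

Proof without Nakayama: `H₀ := B ∩ {equivariant functions}` is a `ℤ_(ℓ)`-algebra of equivariant
functions whose values are integral over `ℤ_(ℓ)` (`isIntegral_of_equivariant_valued`), hence a
finitely generated (`fg_of_equivariant_integral`) free `ℤ_(ℓ)`-module with a basis `b` which is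
`ℚ̄`-linearly independent (Galois descent).  `B = V · H₀`, so `b_i (s + t) = ∑ c_jk b_j s * b_k t`
with `c_jk ∈ V`; the `c_jk` are unique, hence Galois-fixed, hence in `V ∩ ℚ = ℤ_(ℓ)`.
-/
import Fermat.Agent.A3.H619.MaxOrder
import Fermat.Agent.A3.H619.ValQ
import Fermat.Agent.A3.H619.Order
import Fermat.Agent.S19.Unr.Spec

set_option autoImplicit false
set_option linter.unusedSectionVars false
set_option linter.unusedVariables false

noncomputable section

namespace Fermat.Agent.A3.H619

open GaloisRep Module Fermat.Agent.S19.Unr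

variable {ℓ : ℕ} {M : Type} [AddCommGroup M] {V : ValuationSubring Qb} {act : GQ → M → M}

/-- The diagonal action on pairs (UC copy). -/
def actPair (act : GQ → M → M) (σ : GQ) (st : M × M) : M × M := (act σ st.1, act σ st.2)

/-- Constant functions with value in `V` lie in a `V`-subalgebra of functions. -/
theorem const_mem_of_mem_val (B : Subalgebra V (M → Qb)) {c : Qb} (hc : c ∈ V) :
    (fun _ : M => c) ∈ B :=
  B.algebraMap_mem ⟨c, hc⟩

/-- The `ℤ_(ℓ)`-algebra of equivariant elements of a local order. -/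
def equivOrder (hV : (ℓ : Qb) ∈ V.nonunits) (O : LocalOrder V M act) :
    Subalgebra (ratLocalizedAt ℓ) (M → Qb) where
  carrier := {h | h ∈ O.B ∧ IsEquivFun act h}
  mul_mem' := by
    rintro f g ⟨hf, hf'⟩ ⟨hg, hg'⟩
    refine ⟨O.B.mul_mem hf hg, fun σ m => ?_⟩
    rw [Pi.mul_apply, Pi.mul_apply, hf', hg', map_mul]
  add_mem' := by
    rintro f g ⟨hf, hf'⟩ ⟨hg, hg'⟩
    refine ⟨O.B.add_mem hf hg, fun σ m => ?_⟩
    rw [Pi.add_apply, Pi.add_apply, hf', hg', map_add]
  algebraMap_mem' := by
    intro r
    refine ⟨const_mem_of_mem_val O.B (algebraMap_ratLoc_mem_val V hV r), fun σ m => ?_⟩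
    rw [Pi.algebraMap_apply, Pi.algebraMap_apply,
      IsScalarTower.algebraMap_apply (ratLocalizedAt ℓ) ℚ Qb]
    exact (σ.commutes _).symm

theorem mem_equivOrder (hV : (ℓ : Qb) ∈ V.nonunits) (O : LocalOrder V M act) {h : M → Qb} :
    h ∈ equivOrder hV O ↔ h ∈ O.B ∧ IsEquivFun act h := Iff.rfl

section Main

variable [Fact ℓ.Prime] [Finite M] (hact : Fermat.Agent.S19.IsContAddAction act)
  (hV : (ℓ : Qb) ∈ V.nonunits) (O : LocalOrder V M act)
  (hspan : Subalgebra.toSubmodule O.B ≤ Submodule.span V O.equivariantElements)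

include hact hV hspan

/-- Elements of `H₀` which agree at two points: all of `B` agrees. -/
theorem equivOrder_sep (s t : M) (hst : s ≠ t) : ∃ f ∈ equivOrder hV O, f s ≠ f t := by
  by_contra hne
  push Not at hne
  have h1 : ∀ g ∈ Submodule.span V O.equivariantElements, g s = g t := by
    intro g hg
    induction hg using Submodule.span_induction with
    | mem g hg => exact hne g ⟨hg.1, hg.2⟩
    | zero => rfl
    | add x y _ _ hx hy => rw [Pi.add_apply, Pi.add_apply, hx, hy]
    | smul a x _ hx => rw [Pi.smul_apply, Pi.smul_apply, hx]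
  exact hst (O.separates s t fun h hh => h1 h (hspan hh))

theorem equivOrder_preOrderHyp : PreOrderHyp ℓ M act (equivOrder hV O) where
  act_one := hact.act_one
  act_mul := hact.act_mul
  equiv := fun f hf => hf.2
  fg := fg_of_equivariant_integral act hact.act_one hact.act_mul _ (fun f hf => hf.2)
    (fun f hf m => isIntegral_of_equivariant_valued V hV act hact.act_one hact.act_mul f hf.2
      (O.valued f hf.1) m)
  sep := equivOrder_sep hact hV O hspan

/-- **UC core.** -/
theorem coordDatum_of_localOrder : Nonempty (Fermat.Agent.S19.CoordDatum ℓ M act) := by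
  classical
  have hpre := equivOrder_preOrderHyp hact hV O hspan
  obtain ⟨ι, hι, b, hb⟩ := hpre.isGood_val
  -- the basis functions
  let β : ι → (M → Qb) := fun i => ((b i : ↥(equivOrder hV O)) : M → Qb)
  have hβB : ∀ i, β i ∈ O.B := fun i => (b i).2.1
  have hβeq : ∀ i, IsEquivFun act (β i) := fun i => (b i).2.2
  have hβind : LinearIndependent Qb β := hb
  -- every element of `H₀` is an `R`-combination of the basis
  have hrepr : ∀ f : ↥(equivOrder hV O),
      (f : M → Qb) = ∑ i, algebraMap (ratLocalizedAt ℓ) Qb (b.repr f i) • β i := by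
    intro f
    have h1 : (f : M → Qb) = (equivOrder hV O).val.toLinearMap (∑ i, b.repr f i • b i) := by
      rw [b.sum_repr f]; rfl
    rw [h1, map_sum]
    refine Finset.sum_congr rfl fun i _ => ?_
    rw [map_smul, algebraMap_smul]
    rfl
  -- Claim 1: every element of `B` is a `V`-combination of the basis
  have hB' : ∀ g ∈ Submodule.span V O.equivariantElements,
      ∃ c : ι → Qb, (∀ j, c j ∈ V) ∧ g = ∑ j, c j • β j := by
    intro g hg'
    induction hg' using Submodule.span_induction with
    | mem g hg =>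
      refine ⟨fun j => algebraMap (ratLocalizedAt ℓ) Qb (b.repr ⟨g, hg.1, hg.2⟩ j),
        fun j => algebraMap_ratLoc_mem_val V hV _, ?_⟩
      exact hrepr ⟨g, hg.1, hg.2⟩
    | zero => exact ⟨fun _ => 0, fun _ => V.zero_mem, by simp⟩
    | add x y _ _ hx hy =>
      obtain ⟨c, hc, hxc⟩ := hx
      obtain ⟨c', hc', hyc⟩ := hy
      refine ⟨fun j => c j + c' j, fun j => V.add_mem _ _ (hc j) (hc' j), ?_⟩
      simp only [add_smul, Finset.sum_add_distrib]
      rw [← hxc, ← hyc]
    | smul a x _ hx =>
      obtain ⟨c, hc, hxc⟩ := hx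
      refine ⟨fun j => (a : Qb) * c j, fun j => V.mul_mem _ _ a.2 (hc j), ?_⟩
      rw [hxc, Finset.smul_sum]
      refine Finset.sum_congr rfl fun j _ => ?_
      rw [← smul_smul]
      rfl
  have hB : ∀ g ∈ O.B, ∃ c : ι → Qb, (∀ j, c j ∈ V) ∧ g = ∑ j, c j • β j :=
    fun g hg => hB' g (hspan hg)
  -- products of basis functions
  let e : ι × ι → (M × M → Qb) := fun jk p => β jk.1 p.1 * β jk.2 p.2
  have heind : LinearIndependent Qb e := linearIndependent_box β β hβind hβind
  have heeq : ∀ jk, IsEquivFun (actPair act) (e jk) := by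
    intro jk σ p
    show β jk.1 (act σ p.1) * β jk.2 (act σ p.2) = σ (β jk.1 p.1 * β jk.2 p.2)
    rw [hβeq jk.1 σ, hβeq jk.2 σ, map_mul]
  -- Claim 2: the span of the tensor functions
  have hT : ∀ G ∈ Submodule.span V (tensorFunctions (O.B : Set (M → Qb))),
      ∃ c : ι × ι → Qb, (∀ jk, c jk ∈ V) ∧ G = ∑ jk, c jk • e jk := by
    intro G hG
    induction hG using Submodule.span_induction with
    | mem G hG =>
      obtain ⟨a, ha, a', ha', rfl⟩ := hG
      obtain ⟨c, hc, hac⟩ := hB a ha
      obtain ⟨c', hc', hac'⟩ := hB a' ha'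
      refine ⟨fun jk => c jk.1 * c' jk.2, fun jk => V.mul_mem _ _ (hc _) (hc' _), ?_⟩
      funext p
      rw [hac, hac', Fintype.sum_prod_type]
      simp only [Finset.sum_apply, Pi.smul_apply, smul_eq_mul, e]
      rw [Finset.sum_mul_sum]
      refine Finset.sum_congr rfl fun j _ => Finset.sum_congr rfl fun k _ => ?_
      ring
    | zero => exact ⟨fun _ => 0, fun _ => V.zero_mem, by simp⟩
    | add x y _ _ hx hy =>
      obtain ⟨c, hc, hxc⟩ := hx
      obtain ⟨c', hc', hyc⟩ := hy
      refine ⟨fun j => c j + c' j, fun j => V.add_mem _ _ (hc j) (hc' j), ?_⟩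
      simp only [add_smul, Finset.sum_add_distrib]
      rw [← hxc, ← hyc]
    | smul a x _ hx =>
      obtain ⟨c, hc, hxc⟩ := hx
      refine ⟨fun j => (a : Qb) * c j, fun j => V.mul_mem _ _ a.2 (hc j), ?_⟩
      rw [hxc, Finset.smul_sum]
      refine Finset.sum_congr rfl fun j _ => ?_
      rw [← smul_smul]
      rfl
  -- the diagonal action is an action
  have h1 : ∀ st : M × M, actPair act 1 st = st := fun st =>
    Prod.ext (hact.act_one st.1) (hact.act_one st.2)
  have hm : ∀ (σ τ : GQ) (st : M × M),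
      actPair act (σ * τ) st = actPair act σ (actPair act τ st) :=
    fun σ τ st => Prod.ext (hact.act_mul σ τ st.1) (hact.act_mul σ τ st.2)
  refine ⟨{ ι := ι
            fin := Finite.of_fintype ι
            Φ := fun m i => β i m
            inj := ?_
            equivariant := fun σ m i => hβeq i σ m
            integral := fun m i => isIntegral_of_equivariant_valued V hV act hact.act_one
              hact.act_mul (β i) (hβeq i) (O.valued _ (hβB i)) m
            add_mem := ?_ }⟩
  · -- injectivity
    intro m m' hmm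
    by_contra hne
    obtain ⟨f, hf, hfne⟩ := hpre.sep m m' hne
    apply hfne
    have := hrepr ⟨f, hf⟩
    simp only at this
    rw [this]
    simp only [Finset.sum_apply, Pi.smul_apply]
    refine Finset.sum_congr rfl fun i _ => ?_
    rw [show β i m = β i m' from congrFun hmm i]
  · -- addition
    intro i
    set S : Set (M × M → Qb) := {f | ∃ j, f = fun p : M × M => β j p.1} ∪
      {f | ∃ j, f = fun p : M × M => β j p.2} with hS
    show (fun p : M × M => β i (p.1 + p.2)) ∈ Algebra.adjoin (Fermat.Agent.S19.Zb ℓ) S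
    have heS : ∀ jk, e jk ∈ Algebra.adjoin (Fermat.Agent.S19.Zb ℓ) S := by
      intro jk
      have h1 : (fun p : M × M => β jk.1 p.1) ∈ Algebra.adjoin (Fermat.Agent.S19.Zb ℓ) S :=
        Algebra.subset_adjoin (Or.inl ⟨jk.1, rfl⟩)
      have h2 : (fun p : M × M => β jk.2 p.2) ∈ Algebra.adjoin (Fermat.Agent.S19.Zb ℓ) S :=
        Algebra.subset_adjoin (Or.inr ⟨jk.2, rfl⟩)
      exact Subalgebra.mul_mem _ h1 h2
    set F : M × M → Qb := fun p => β i (p.1 + p.2) with hF
    have hFeq : IsEquivFun (actPair act) F := by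
      intro σ p
      show β i (act σ p.1 + act σ p.2) = σ (β i (p.1 + p.2))
      rw [← hact.act_add, hβeq i σ]
    obtain ⟨c, hc, hFc⟩ := hT F (O.comul (β i) (hβB i))
    have hcR : ∀ jk, IsIntegral (ratLocalizedAt ℓ) (c jk) := by
      intro jk
      obtain ⟨q, hq⟩ := coeff_rat (actPair act) h1 hm e heeq heind F hFeq c hFc jk
      have hqV : algebraMap ℚ Qb q ∈ V := by rw [hq]; exact hc jk
      have hqR : q ∈ ratLocalizedAt ℓ := mem_ratLoc_of_mem_val V hV hqV
      rw [← hq]
      exact (isIntegral_algebraMap : IsIntegral (ratLocalizedAt ℓ)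
        (algebraMap (ratLocalizedAt ℓ) Qb ⟨q, hqR⟩))
    rw [hFc]
    refine Subalgebra.sum_mem _ fun jk _ => ?_
    have h3 : c jk • e jk = (⟨c jk, hcR jk⟩ : Fermat.Agent.S19.Zb ℓ) • e jk := rfl
    rw [h3]
    exact Subalgebra.smul_mem _ (heS jk) _

end Main

/-- **Node UC.** -/
theorem coeffStatement : Fermat.Agent.S19.Unr.CoeffStatement := by
  intro ℓ _ M _ _ act hact V hV O hspan
  exact coordDatum_of_localOrder hact hV O hspan

end Fermat.Agent.A3.H619
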